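import Mathlib

/-!
# S55, engine E1, leaves ALG2 and ALG4 (NORM-KILL) — interface-free form

Setting: `G` a finite group, `P`, `C` abelian groups with `G`-action (`Representation ℤ G _`),
`R ≤ P` a `G`-stable subgroup, `p` a prime with `p P ⊆ R` (so `N := P / R` is an `𝔽_p`-vector
space; in E1: `P = ℤ[G]^{(N)}`, `R = ker (P → N)`).

* `alg2` : for a `G`-homomorphism `f : R → X`, the map `p • f` extends to a `G`-homomorphism
  `P → X` (`x ↦ f (p x)`).
* `alg4` (**NORM-KILL**) : let `H ≤ G` act trivially on `P / R` and assume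
  `N_H(C) ⊆ p · C^H`.  Then for every ADDITIVE `g : R → C` the norm
  `N_G(g) = ∑_σ σ ∘ g ∘ σ⁻¹` extends to a `G`-homomorphism `P → C`.
-/

set_option autoImplicit false
set_option linter.style.haveILetI false

namespace Fermat.Agent.S55.E1.H423

open Finset

section Extend

variable {P C : Type*} [AddCommGroup P] [AddCommGroup C]

/-- Extension of an additive map from a subgroup `R` to `P = R + ∑ ℤ x i`, with prescribed
values `y i` at the `x i`, provided the values are compatible with all relations. -/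
theorem exists_linearMap_extend (R : Submodule ℤ P) (f : R →ₗ[ℤ] C) {I : Type*} (x : I → P)
    (y : I → C) (hgen : R ⊔ Submodule.span ℤ (Set.range x) = ⊤)
    (hrel : ∀ (m : I →₀ ℤ) (hm : Finsupp.linearCombination ℤ x m ∈ R),
      f ⟨_, hm⟩ = Finsupp.linearCombination ℤ y m) :
    ∃ k : P →ₗ[ℤ] C, (∀ r : R, k r = f r) ∧ ∀ i, k (x i) = y i := by
  classical
  let φ : (R × (I →₀ ℤ)) →ₗ[ℤ] P := R.subtype.coprod (Finsupp.linearCombination ℤ x)
  let ψ : (R × (I →₀ ℤ)) →ₗ[ℤ] C := f.coprod (Finsupp.linearCombination ℤ y)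
  have hφ : Function.Surjective φ := by
    rw [← LinearMap.range_eq_top, LinearMap.range_coprod, Submodule.range_subtype,
      Finsupp.range_linearCombination]
    exact hgen
  have hker : LinearMap.ker φ ≤ LinearMap.ker ψ := by
    rintro ⟨r, m⟩ h
    rw [LinearMap.mem_ker] at h ⊢
    simp only [φ, ψ, LinearMap.coprod_apply, Submodule.subtype_apply] at h ⊢
    have hm : Finsupp.linearCombination ℤ x m ∈ R := by
      have : Finsupp.linearCombination ℤ x m = -(r : P) := by
        rw [eq_neg_iff_add_eq_zero, add_comm]; exact h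
      rw [this]
      exact R.neg_mem r.2
    rw [← hrel m hm, ← map_add]
    have : r + ⟨_, hm⟩ = (0 : R) := Subtype.ext h
    rw [this, map_zero]
  let e := φ.quotKerEquivOfSurjective hφ
  let k : P →ₗ[ℤ] C := (LinearMap.ker φ).liftQ ψ hker ∘ₗ e.symm.toLinearMap
  have hk : ∀ z, k (φ z) = ψ z := by
    intro z
    have : e.symm (φ z) = Submodule.Quotient.mk z := by
      rw [LinearEquiv.symm_apply_eq]
      rfl
    simp only [k, LinearMap.comp_apply, LinearEquiv.coe_coe, this]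
    rfl
  refine ⟨k, fun r => ?_, fun i => ?_⟩
  · have := hk (r, 0)
    simpa [φ, ψ] using this
  · have := hk (0, Finsupp.single i 1)
    simpa [φ, ψ] using this

end Extend

section Lift

universe u

variable {P : Type u} [AddCommGroup P]

/-- If `p P ⊆ R` (`p` prime) there is a family `x i` in `P` lifting an `𝔽_p`-basis of `P / R`:
`P = R + ∑ ℤ x i`, and `∑ m i • x i ∈ R` forces `p ∣ m i` for all `i`. -/
theorem exists_lift_family (R : Submodule ℤ P) (p : ℕ) [Fact p.Prime]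
    (hp : ∀ x : P, (p : ℤ) • x ∈ R) :
    ∃ (I : Type u) (x : I → P), R ⊔ Submodule.span ℤ (Set.range x) = ⊤ ∧
      ∀ m : I →₀ ℤ, Finsupp.linearCombination ℤ x m ∈ R → ∀ i, (p : ℤ) ∣ m i := by
  classical
  have hkill : ∀ v : P ⧸ R, p • v = 0 := by
    intro v
    obtain ⟨z, rfl⟩ := Submodule.Quotient.mk_surjective R v
    rw [← Submodule.Quotient.mk_smul, Submodule.Quotient.mk_eq_zero]
    have := hp z
    rwa [Nat.cast_smul_eq_nsmul] at this
  haveI : Module (ZMod p) (P ⧸ R) := AddCommGroup.zmodModule hkill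
  let b : Module.Basis (Module.Basis.ofVectorSpaceIndex (ZMod p) (P ⧸ R)) (ZMod p) (P ⧸ R) :=
    Module.Basis.ofVectorSpace (ZMod p) (P ⧸ R)
  have hsurj : ∀ i, ∃ z : P, Submodule.Quotient.mk (p := R) z = b i :=
    fun i => Submodule.Quotient.mk_surjective R (b i)
  choose x hx using hsurj
  -- the class of an integral combination of the `x i`
  have hmk : ∀ m : Module.Basis.ofVectorSpaceIndex (ZMod p) (P ⧸ R) →₀ ℤ,
      Submodule.Quotient.mk (p := R) (Finsupp.linearCombination ℤ x m) =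
        Finsupp.linearCombination (ZMod p) b (m.mapRange (Int.cast : ℤ → ZMod p) Int.cast_zero) := by
    intro m
    rw [Finsupp.linearCombination_apply, Finsupp.linearCombination_apply,
      Finsupp.sum_mapRange_index (by intro i; exact zero_smul _ _), Finsupp.sum, Finsupp.sum]
    rw [← Submodule.mkQ_apply, map_sum]
    refine Finset.sum_congr rfl fun i _ => ?_
    rw [map_smul, Submodule.mkQ_apply, hx, Int.cast_smul_eq_zsmul]
  refine ⟨_, x, ?_, ?_⟩
  · rw [eq_top_iff]
    rintro z -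
    let c := b.repr (Submodule.Quotient.mk z)
    let m : Module.Basis.ofVectorSpaceIndex (ZMod p) (P ⧸ R) →₀ ℤ :=
      c.mapRange (ZMod.cast : ZMod p → ℤ) (by simp)
    have h1 : Submodule.Quotient.mk (p := R) (Finsupp.linearCombination ℤ x m) =
        Submodule.Quotient.mk z := by
      rw [hmk]
      have : m.mapRange (Int.cast : ℤ → ZMod p) Int.cast_zero = c := by
        ext i
        simp [m]
      rw [this]
      exact b.linearCombination_repr _
    have h2 : z - Finsupp.linearCombination ℤ x m ∈ R := by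
      rw [← Submodule.Quotient.mk_eq_zero, Submodule.Quotient.mk_sub, h1, sub_self]
    have h3 : Finsupp.linearCombination ℤ x m ∈ Submodule.span ℤ (Set.range x) := by
      rw [← Finsupp.range_linearCombination]
      exact ⟨m, rfl⟩
    have : z = (z - Finsupp.linearCombination ℤ x m) + Finsupp.linearCombination ℤ x m := by
      abel
    rw [this]
    exact Submodule.add_mem_sup h2 h3
  · intro m hm i
    have h0 : Finsupp.linearCombination (ZMod p) b
        (m.mapRange (Int.cast : ℤ → ZMod p) Int.cast_zero) = 0 := by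
      rw [← hmk, Submodule.Quotient.mk_eq_zero]
      exact hm
    have h1 : m.mapRange (Int.cast : ℤ → ZMod p) Int.cast_zero = 0 := by
      have hli := b.linearIndependent
      rw [linearIndependent_iff] at hli
      exact hli _ h0
    have h2 : ((m i : ℤ) : ZMod p) = 0 := by
      have := DFunLike.congr_fun h1 i
      simpa using this
    exact (ZMod.intCast_zmod_eq_zero_iff_dvd (m i) p).mp h2

end Lift

section Defs

variable {G : Type*} [Group G]
variable {P C : Type*} [AddCommGroup P] [AddCommGroup C]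
variable (ρP : Representation ℤ G P) (ρC : Representation ℤ G C)
variable (R : Submodule ℤ P) (hR : ∀ (σ : G), ∀ r ∈ R, ρP σ r ∈ R)

/-- The conjugate `σ ∘ g ∘ σ⁻¹` of an additive map `g : R → C`. -/
def conjHom (g : R →ₗ[ℤ] C) (σ : G) : R →ₗ[ℤ] C :=
  ρC σ ∘ₗ g ∘ₗ (ρP σ⁻¹).restrict (hR σ⁻¹)

theorem conjHom_apply (g : R →ₗ[ℤ] C) (σ : G) (r : R) :
    conjHom ρP ρC R hR g σ r = ρC σ (g ⟨ρP σ⁻¹ r, hR σ⁻¹ r r.2⟩) := rfl

/-- `N_G(g) = ∑_σ σ ∘ g ∘ σ⁻¹`, a `G`-homomorphism `R → C`. -/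
def normHom [Fintype G] (g : R →ₗ[ℤ] C) : R →ₗ[ℤ] C := ∑ σ : G, conjHom ρP ρC R hR g σ

theorem normHom_apply [Fintype G] (g : R →ₗ[ℤ] C) (r : R) :
    normHom ρP ρC R hR g r = ∑ σ : G, ρC σ (g ⟨ρP σ⁻¹ r, hR σ⁻¹ r r.2⟩) := by
  simp [normHom, LinearMap.sum_apply, conjHom_apply]

/-- Extension by zero of `g : R → C` to a plain function on `P` (bookkeeping device). -/
noncomputable def extZero (g : R →ₗ[ℤ] C) : P → C := by
  classical
  exact fun z => if h : z ∈ R then g ⟨z, h⟩ else 0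

theorem extZero_of_mem (g : R →ₗ[ℤ] C) {z : P} (h : z ∈ R) : extZero R g z = g ⟨z, h⟩ := by
  simp [extZero, h]

theorem extZero_coe (g : R →ₗ[ℤ] C) (r : R) : extZero R g (r : P) = g r := by
  rw [extZero_of_mem R g r.2]

theorem extZero_add (g : R →ₗ[ℤ] C) {z z' : P} (h : z ∈ R) (h' : z' ∈ R) :
    extZero R g (z + z') = extZero R g z + extZero R g z' := by
  rw [extZero_of_mem R g h, extZero_of_mem R g h', extZero_of_mem R g (R.add_mem h h'),
    ← map_add]
  rfl

theorem extZero_sub (g : R →ₗ[ℤ] C) {z z' : P} (h : z ∈ R) (h' : z' ∈ R) :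
    extZero R g (z - z') = extZero R g z - extZero R g z' := by
  rw [extZero_of_mem R g h, extZero_of_mem R g h', extZero_of_mem R g (R.sub_mem h h'),
    ← map_sub]
  rfl

theorem extZero_zsmul (g : R →ₗ[ℤ] C) (n : ℤ) {z : P} (h : z ∈ R) :
    extZero R g (n • z) = n • extZero R g z := by
  rw [extZero_of_mem R g h, extZero_of_mem R g (R.smul_mem n h), ← map_smul]
  rfl

end Defs

section Main

universe u

variable {G : Type*} [Group G]
variable {P : Type u} {C : Type*} [AddCommGroup P] [AddCommGroup C]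
variable (ρP : Representation ℤ G P) (ρC : Representation ℤ G C)
variable (R : Submodule ℤ P) (hR : ∀ (σ : G), ∀ r ∈ R, ρP σ r ∈ R)

omit [AddCommGroup C] in
private theorem rho_mul_apply {V : Type*} [AddCommGroup V] (ρ : Representation ℤ G V) (σ τ : G)
    (v : V) : ρ (σ * τ) v = ρ σ (ρ τ v) := by
  rw [map_mul]; rfl

private theorem rho_inv_apply {V : Type*} [AddCommGroup V] (ρ : Representation ℤ G V) (σ : G)
    (v : V) : ρ σ⁻¹ (ρ σ v) = v := by
  rw [← rho_mul_apply, inv_mul_cancel, map_one]; rfl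

private theorem rho_apply_inv {V : Type*} [AddCommGroup V] (ρ : Representation ℤ G V) (σ : G)
    (v : V) : ρ σ (ρ σ⁻¹ v) = v := by
  rw [← rho_mul_apply, mul_inv_cancel, map_one]; rfl

include hR in
/-- **ALG4, step 1** (`H`-level): under the hypotheses of NORM-KILL, the `H`-norm
`f = ∑_{t ∈ H} t g t⁻¹` of an additive map `g : R → C` extends to an `H`-homomorphism
`k : P → C`. -/
theorem exists_extend_normH (p : ℕ) [Fact p.Prime] (hp : ∀ x : P, (p : ℤ) • x ∈ R)
    (H : Subgroup G) [Fintype H] (hH : ∀ h ∈ H, ∀ x : P, ρP h x - x ∈ R)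
    (hC : ∀ c : C, ∃ c' : C, (∀ h ∈ H, ρC h c' = c') ∧ ∑ h : H, ρC (h : G) c = (p : ℤ) • c')
    (g : R →ₗ[ℤ] C) :
    ∃ k : P →ₗ[ℤ] C, (∀ h ∈ H, ∀ z : P, k (ρP h z) = ρC h (k z)) ∧
      ∀ r : R, k r = ∑ t : H, ρC (t : G) (extZero R g (ρP (t : G)⁻¹ r)) := by
  classical
  obtain ⟨I, x, hgen, hdvd⟩ := exists_lift_family R p hp
  -- the `H`-norm of `g` as a function on `P`
  let F : P → C := fun z => ∑ t : H, ρC (t : G) (extZero R g (ρP (t : G)⁻¹ z))
  have hF_add : ∀ z z', z ∈ R → z' ∈ R → F (z + z') = F z + F z' := by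
    intro z z' hz hz'
    simp only [F]
    rw [← Finset.sum_add_distrib]
    refine Finset.sum_congr rfl fun t _ => ?_
    rw [map_add, extZero_add R g (hR _ z hz) (hR _ z' hz'), map_add]
  have hF_smul : ∀ (n : ℤ) z, z ∈ R → F (n • z) = n • F z := by
    intro n z hz
    simp only [F]
    rw [Finset.smul_sum]
    refine Finset.sum_congr rfl fun t _ => ?_
    rw [map_smul, extZero_zsmul R g n (hR _ z hz), map_smul]
  let f : R →ₗ[ℤ] C :=
    { toFun := fun r => F r
      map_add' := fun r r' => hF_add r r' r.2 r'.2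
      map_smul' := fun n r => hF_smul n r r.2 }
  have hf : ∀ r : R, f r = F r := fun r => rfl
  -- `F` is `H`-equivariant
  have hF_equiv : ∀ h ∈ H, ∀ z : P, F (ρP h z) = ρC h (F z) := by
    intro h hh z
    simp only [F]
    rw [map_sum]
    refine Fintype.sum_equiv (Equiv.mulLeft (⟨h, hh⟩ : H)⁻¹) _ _ fun t => ?_
    simp only [Equiv.coe_mulLeft, Subgroup.coe_mul, Subgroup.coe_inv, mul_inv_rev, inv_inv]
    rw [rho_mul_apply ρP, ← rho_mul_apply ρC, mul_inv_cancel_left]
  -- the elements `w i t = t⁻¹ x i - x i ∈ R`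
  have hw : ∀ (i : I) (t : H), ρP (t : G)⁻¹ (x i) - x i ∈ R := fun i t =>
    hH _ (H.inv_mem t.2) (x i)
  let a : I → C := fun i => ∑ t : H, ρC (t : G) (extZero R g (ρP (t : G)⁻¹ (x i) - x i))
  have hc : ∀ i : I, ∃ c' : C, (∀ h ∈ H, ρC h c' = c') ∧
      ∑ h : H, ρC (h : G) (extZero R g ((p : ℤ) • x i)) = (p : ℤ) • c' := fun i => hC _
  choose c hcinv hcsum using hc
  let y : I → C := fun i => a i + c i
  -- (F1) `F (p x i) = p y i`
  have hF1 : ∀ i, F ((p : ℤ) • x i) = (p : ℤ) • y i := by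
    intro i
    simp only [F, y, a]
    rw [smul_add, Finset.smul_sum, ← hcsum i, ← Finset.sum_add_distrib]
    refine Finset.sum_congr rfl fun t _ => ?_
    have h1 : ρP (t : G)⁻¹ ((p : ℤ) • x i) =
        (p : ℤ) • (ρP (t : G)⁻¹ (x i) - x i) + (p : ℤ) • x i := by
      rw [map_smul, smul_sub, sub_add_cancel]
    rw [h1, extZero_add R g (R.smul_mem _ (hw i t)) (hp (x i)),
      extZero_zsmul R g _ (hw i t), map_add, map_smul]
  -- (F2) `F (h x i - x i) = h a i - a i`
  have hF2 : ∀ i, ∀ h ∈ H, F (ρP h (x i) - x i) = ρC h (a i) - a i := by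
    intro i h hh
    simp only [F, a]
    rw [map_sum, ← Finset.sum_sub_distrib]
    have key : ∀ t : H, ρC (t : G) (extZero R g (ρP (t : G)⁻¹ (ρP h (x i) - x i))) =
        ρC (t : G) (extZero R g (ρP ((⟨h, hh⟩ : H)⁻¹ * t : H).1⁻¹ (x i) - x i)) -
          ρC (t : G) (extZero R g (ρP (t : G)⁻¹ (x i) - x i)) := by
      intro t
      have h1 : ρP (t : G)⁻¹ (ρP h (x i) - x i) =
          (ρP ((⟨h, hh⟩ : H)⁻¹ * t : H).1⁻¹ (x i) - x i) - (ρP (t : G)⁻¹ (x i) - x i) := by
        simp only [Subgroup.coe_mul, Subgroup.coe_inv, mul_inv_rev, inv_inv]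
        rw [map_sub, rho_mul_apply ρP]
        abel
      rw [h1, extZero_sub R g (hw i _) (hw i t), map_sub]
    rw [Finset.sum_congr rfl fun t _ => key t, Finset.sum_sub_distrib, Finset.sum_sub_distrib]
    congr 1
    refine Fintype.sum_equiv (Equiv.mulLeft (⟨h, hh⟩ : H)⁻¹) _ _ fun t => ?_
    simp only [Equiv.coe_mulLeft, Subgroup.coe_mul, Subgroup.coe_inv, mul_inv_rev, inv_inv]
    rw [← rho_mul_apply ρC, mul_inv_cancel_left]
  -- the relations
  have hrel : ∀ (m : I →₀ ℤ) (hm : Finsupp.linearCombination ℤ x m ∈ R),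
      f ⟨_, hm⟩ = Finsupp.linearCombination ℤ y m := by
    intro m hm
    have hd := hdvd m hm
    have hl : ∀ i, (m i / (p : ℤ)) * (p : ℤ) = m i := fun i => Int.ediv_mul_cancel (hd i)
    let l : I →₀ ℤ := m.mapRange (fun n => n / (p : ℤ)) (by simp)
    let xr : I → R := fun i => ⟨(p : ℤ) • x i, hp (x i)⟩
    have h1 : (⟨_, hm⟩ : R) = Finsupp.linearCombination ℤ xr l := by
      apply Subtype.ext
      have e1 : ((Finsupp.linearCombination ℤ xr l : R) : P) =
          Finsupp.linearCombination ℤ (fun i => (p : ℤ) • x i) l := by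
        rw [← Submodule.subtype_apply, LinearMap.map_finsupp_linearCombination]
        rfl
      rw [e1]
      show Finsupp.linearCombination ℤ x m = _
      rw [Finsupp.linearCombination_apply, Finsupp.linearCombination_apply,
        Finsupp.sum_mapRange_index (by intro i; exact zero_smul _ _)]
      refine Finsupp.sum_congr fun i _ => ?_
      rw [smul_smul, hl]
    rw [h1, LinearMap.map_finsupp_linearCombination, Finsupp.linearCombination_apply,
      Finsupp.linearCombination_apply, Finsupp.sum_mapRange_index (by intro i; exact zero_smul _ _)]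
    refine Finsupp.sum_congr fun i _ => ?_
    show (m i / (p : ℤ)) • f (xr i) = m i • y i
    rw [hf]
    show (m i / (p : ℤ)) • F ((p : ℤ) • x i) = m i • y i
    rw [hF1, smul_smul, hl]
  obtain ⟨k, hkR, hkx⟩ := exists_linearMap_extend R f x y hgen hrel
  have hk_equiv : ∀ h ∈ H, ∀ z : P, k (ρP h z) = ρC h (k z) := by
    intro h hh
    have hle : (⊤ : Submodule ℤ P) ≤ LinearMap.eqLocus (k ∘ₗ ρP h) (ρC h ∘ₗ k) := by
      rw [← hgen, sup_le_iff]
      refine ⟨fun r hr => ?_, Submodule.span_le.mpr ?_⟩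
      · show k (ρP h r) = ρC h (k r)
        have e1 : k (ρP h r) = f ⟨ρP h r, hR h r hr⟩ := hkR ⟨_, _⟩
        have e2 : k r = f ⟨r, hr⟩ := hkR ⟨r, hr⟩
        rw [e1, e2, hf, hf]
        exact hF_equiv h hh r
      · rintro _ ⟨i, rfl⟩
        show k (ρP h (x i)) = ρC h (k (x i))
        have e2 : k (ρP h (x i) - x i) = f ⟨_, hH h hh (x i)⟩ := hkR ⟨_, _⟩
        have e3 : k (ρP h (x i)) = k (ρP h (x i) - x i) + k (x i) := by
          rw [← map_add, sub_add_cancel]
        rw [e3, e2, hf, hkx]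
        show F (ρP h (x i) - x i) + y i = ρC h (y i)
        rw [hF2 i h hh]
        simp only [y, map_add, hcinv i h hh]
        abel
    intro z
    exact hle (Submodule.mem_top : z ∈ ⊤)
  exact ⟨k, hk_equiv, fun r => by rw [hkR, hf]⟩

/-- The bijection `(G ⧸ H) × H ≃ G`, `(q, t) ↦ q.out * t`. -/
noncomputable def cosetProdEquiv (H : Subgroup G) : (G ⧸ H) × H ≃ G where
  toFun x := x.1.out * x.2
  invFun σ := (QuotientGroup.mk σ, ⟨(QuotientGroup.mk σ : G ⧸ H).out⁻¹ * σ, by
    rw [← QuotientGroup.eq]; exact QuotientGroup.out_eq' _⟩)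
  left_inv x := by
    have h1 : (QuotientGroup.mk (x.1.out * (x.2 : G)) : G ⧸ H) = x.1 := by
      rw [QuotientGroup.mk_mul_of_mem _ x.2.2, QuotientGroup.out_eq']
    refine Prod.ext h1 (Subtype.ext ?_)
    show (QuotientGroup.mk (x.1.out * (x.2 : G)) : G ⧸ H).out⁻¹ * (x.1.out * (x.2 : G)) = x.2
    rw [h1, inv_mul_cancel_left]
  right_inv σ := by
    show (QuotientGroup.mk σ : G ⧸ H).out * ((QuotientGroup.mk σ : G ⧸ H).out⁻¹ * σ) = σ
    rw [mul_inv_cancel_left]

include hR in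
/-- **ALG4 (NORM-KILL).**  `G` finite, `R ≤ P` a `G`-stable subgroup with `p P ⊆ R`, `H ≤ G`
acting trivially on `P / R`, `C` a `G`-module with `N_H(C) ⊆ p · C^H`.  Then for every ADDITIVE
map `g : R → C` the norm `N_G(g) = ∑_σ σ g σ⁻¹` is the restriction of a `G`-homomorphism
`P → C`. -/
theorem alg4 [Fintype G] (p : ℕ) [Fact p.Prime] (hp : ∀ x : P, (p : ℤ) • x ∈ R)
    (H : Subgroup G) [Fintype H] (hH : ∀ h ∈ H, ∀ x : P, ρP h x - x ∈ R)
    (hC : ∀ c : C, ∃ c' : C, (∀ h ∈ H, ρC h c' = c') ∧ ∑ h : H, ρC (h : G) c = (p : ℤ) • c')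
    (g : R →ₗ[ℤ] C) :
    ∃ K : P →ₗ[ℤ] C, (∀ (σ : G) (z : P), K (ρP σ z) = ρC σ (K z)) ∧
      ∀ r : R, K r = normHom ρP ρC R hR g r := by
  classical
  obtain ⟨k, hk, hkR⟩ := exists_extend_normH ρP ρC R hR p hp H hH hC g
  let cj : G → (P →ₗ[ℤ] C) := fun σ => ρC σ ∘ₗ k ∘ₗ ρP σ⁻¹
  have hcj : ∀ (σ : G) (z : P), cj σ z = ρC σ (k (ρP σ⁻¹ z)) := fun σ z => rfl
  have hcj_mul : ∀ (σ h : G), h ∈ H → cj (σ * h) = cj σ := by
    intro σ h hh
    ext z
    rw [hcj, hcj, mul_inv_rev, rho_mul_apply ρC, rho_mul_apply ρP, ← hk h hh, rho_apply_inv]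
  haveI : Fintype (G ⧸ H) := Fintype.ofFinite _
  have hcj_out : ∀ σ : G, cj ((QuotientGroup.mk σ : G ⧸ H).out) = cj σ := by
    intro σ
    obtain ⟨h, hh⟩ := QuotientGroup.mk_out_eq_mul H σ
    rw [hh, hcj_mul σ h h.2]
  refine ⟨∑ q : G ⧸ H, cj q.out, ?_, ?_⟩
  · intro τ z
    simp only [LinearMap.sum_apply, map_sum]
    have h1 : ∀ q : G ⧸ H, cj q.out (ρP τ z) = ρC τ (cj ((τ⁻¹ • q).out) z) := by
      intro q
      have e : (τ⁻¹ • q) = QuotientGroup.mk (τ⁻¹ * q.out) := by
        conv_lhs => rw [← QuotientGroup.out_eq' q]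
        rfl
      rw [e, hcj_out, hcj, hcj, mul_inv_rev, inv_inv, rho_mul_apply ρP, ← rho_mul_apply ρC,
        mul_inv_cancel_left]
    rw [Finset.sum_congr rfl fun q _ => h1 q]
    exact Fintype.sum_equiv (MulAction.toPerm τ⁻¹) _ _ fun q => rfl
  · intro r
    rw [normHom_apply]
    simp only [LinearMap.sum_apply]
    have h1 : ∀ q : G ⧸ H, cj q.out r =
        ∑ t : H, ρC (q.out * t) (extZero R g (ρP (q.out * (t : G))⁻¹ r)) := by
      intro q
      have e1 := hkR ⟨ρP q.out⁻¹ r, hR _ r r.2⟩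
      rw [hcj, e1, map_sum]
      refine Finset.sum_congr rfl fun t _ => ?_
      rw [rho_mul_apply ρC, mul_inv_rev, rho_mul_apply ρP]
    rw [Finset.sum_congr rfl fun q _ => h1 q, ← Fintype.sum_prod_type'
      (f := fun (q : G ⧸ H) (t : H) => ρC (q.out * t) (extZero R g (ρP (q.out * (t : G))⁻¹ r)))]
    refine Fintype.sum_equiv (cosetProdEquiv H) _ _ fun x => ?_
    show _ = ρC (x.1.out * x.2) (g ⟨ρP (x.1.out * (x.2 : G))⁻¹ r, _⟩)
    rw [extZero_of_mem R g (hR _ r r.2)]

/-- **ALG2.**  If `p P ⊆ R` and `f : R → X` is a `G`-homomorphism then `p • f` is the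
restriction of a `G`-homomorphism `P → X`, namely `x ↦ f (p x)`. -/
theorem alg2 {X : Type*} [AddCommGroup X] (ρX : Representation ℤ G X) (p : ℕ)
    (hp : ∀ x : P, (p : ℤ) • x ∈ R) (f : R →ₗ[ℤ] X)
    (hf : ∀ (σ : G) (r : R), f ⟨ρP σ r, hR σ r r.2⟩ = ρX σ (f r)) :
    ∃ K : P →ₗ[ℤ] X, (∀ (σ : G) (z : P), K (ρP σ z) = ρX σ (K z)) ∧
      ∀ r : R, K r = (p : ℤ) • f r := by
  let K : P →ₗ[ℤ] X :=
    { toFun := fun z => f ⟨(p : ℤ) • z, hp z⟩
      map_add' := fun z z' => by
        rw [← map_add]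
        exact congrArg f (Subtype.ext (smul_add _ _ _))
      map_smul' := fun n z => by
        rw [RingHom.id_apply, ← map_smul]
        exact congrArg f (Subtype.ext (smul_comm _ _ _)) }
  refine ⟨K, fun σ z => ?_, fun r => ?_⟩
  · show f ⟨(p : ℤ) • ρP σ z, _⟩ = ρX σ (f ⟨(p : ℤ) • z, hp z⟩)
    rw [← hf]
    exact congrArg f (Subtype.ext (map_smul _ _ _).symm)
  · show f ⟨(p : ℤ) • (r : P), _⟩ = _
    rw [← map_smul]
    exact congrArg f (Subtype.ext rfl)

end Main

end Fermat.Agent.S55.E1.H423
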