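import Fermat.Agent.S55.E1.SpecAlg
import Fermat.Agent.S55.E1.H423.Alg4

/-!
# S55, engine E1: `ALG4Spec` (NORM-KILL) — exact frozen Spec form

* `alg4_add` : NORM-KILL in purely additive form (actions `G →* AddMonoid.End _`, no `ℤ`-module
  instances in the statement), derived from `H423.alg4`;
* `alg4Spec : ALG4Spec` : the frozen statement of `E1/SpecAlg.lean` for the standard presentation
  `0 → R → P → N → 0` in `Rep ℤ G`.  (Normality of `H` and finiteness of `N` are not used.)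
-/

set_option autoImplicit false
set_option linter.style.haveILetI false

open CategoryTheory CategoryTheory.Limits

namespace Fermat.Agent.S55.E1.H423

section Additive

variable {G : Type*} [Group G]

/-- The (canonical-instance) `ℤ`-linear representation attached to an additive action. -/
def repOfAdd {P : Type*} [AddCommGroup P] (a : G →* AddMonoid.End P) : Representation ℤ G P :=
  ((addMonoidEndRingEquivInt P : AddMonoid.End P →+* Module.End ℤ P) : AddMonoid.End P →*
    Module.End ℤ P).comp a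

@[simp]
theorem repOfAdd_apply {P : Type*} [AddCommGroup P] (a : G →* AddMonoid.End P) (g : G) (x : P) :
    repOfAdd a g x = a g x := rfl

/-- **ALG4 (NORM-KILL), additive form.** -/
theorem alg4_add [Fintype G] {R' P C : Type*} [AddCommGroup R'] [AddCommGroup P]
    [AddCommGroup C] (aR : G →* AddMonoid.End R') (aP : G →* AddMonoid.End P)
    (aC : G →* AddMonoid.End C) (ι : R' →+ P) (hι : Function.Injective ι)
    (hιeq : ∀ (g : G) (r : R'), ι (aR g r) = aP g (ι r))
    (p : ℕ) [Fact p.Prime] (hp : ∀ x : P, ∃ r : R', ι r = p • x)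
    (H : Subgroup G) [Fintype H] (hH : ∀ h ∈ H, ∀ x : P, ∃ r : R', ι r = aP h x - x)
    (hC : ∀ c : C, ∃ c' : C, (∀ h ∈ H, aC h c' = c') ∧ ∑ h : H, aC (h : G) c = p • c')
    (ψ : R' →+ C) :
    ∃ K : P →+ C, (∀ (σ : G) (x : P), K (aP σ x) = aC σ (K x)) ∧
      ∀ r : R', K (ι r) = ∑ σ : G, aC σ (ψ (aR σ⁻¹ r)) := by
  classical
  let R : Submodule ℤ P := LinearMap.range ι.toIntLinearMap
  have hR : ∀ (σ : G), ∀ r ∈ R, repOfAdd aP σ r ∈ R := by
    rintro σ _ ⟨r, rfl⟩
    exact ⟨aR σ r, hιeq σ r⟩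
  have hpR : ∀ x : P, (p : ℤ) • x ∈ R := by
    intro x
    obtain ⟨r, hr⟩ := hp x
    exact ⟨r, by rw [Nat.cast_smul_eq_nsmul]; exact hr⟩
  have hHR : ∀ h ∈ H, ∀ x : P, repOfAdd aP h x - x ∈ R := by
    intro h hh x
    obtain ⟨r, hr⟩ := hH h hh x
    exact ⟨r, hr⟩
  have hCR : ∀ c : C, ∃ c' : C, (∀ h ∈ H, repOfAdd aC h c' = c') ∧
      ∑ h : H, repOfAdd aC (h : G) c = (p : ℤ) • c' := by
    intro c
    obtain ⟨c', h1, h2⟩ := hC c
    exact ⟨c', h1, by rw [Nat.cast_smul_eq_nsmul]; exact h2⟩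
  let e : R' ≃ₗ[ℤ] R := LinearEquiv.ofInjective ι.toIntLinearMap hι
  have he : ∀ r : R', ((e r : R) : P) = ι r := fun r => rfl
  let g : R →ₗ[ℤ] C := ψ.toIntLinearMap ∘ₗ e.symm.toLinearMap
  obtain ⟨K, hK, hKR⟩ := alg4 (repOfAdd aP) (repOfAdd aC) R hR p hpR H hHR hCR g
  refine ⟨K.toAddMonoidHom, fun σ x => hK σ x, fun r => ?_⟩
  have h1 := hKR (e r)
  rw [normHom_apply] at h1
  have h0 : K (ι r) = K ((e r : R) : P) := by rw [he]
  show K (ι r) = _
  rw [h0, h1]
  refine Finset.sum_congr rfl fun σ _ => ?_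
  have h2 : (⟨repOfAdd aP σ⁻¹ (e r : R), hR σ⁻¹ _ (e r).2⟩ : R) = e (aR σ⁻¹ r) :=
    Subtype.ext (hιeq σ⁻¹ r).symm
  rw [h2]
  show aC σ (ψ (e.symm (e (aR σ⁻¹ r)))) = _
  rw [LinearEquiv.symm_apply_apply]

end Additive

section Std

open Fermat.Agent.S55.E1

variable {G : Type} [Group G] (N : Rep.{0} ℤ G)

/-- `ε ∘ ι = 0` on elements. -/
theorem stdε_stdι_apply (r : (stdR N).V) : (stdε N).hom ((stdι N).hom r) = 0 := by
  have h : stdι N ≫ stdε N = 0 := kernel.condition (stdε N)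
  have h2 := congrArg (fun f => f.hom r) h
  simpa using h2

theorem stdι_injective : Function.Injective (stdι N).hom :=
  (Rep.mono_iff_injective _).1 (stdι_mono N)

/-- Every element of `ker ε` comes from `R`. -/
theorem exists_stdι_eq {x : (stdP N).V} (hx : (stdε N).hom x = 0) :
    ∃ r : (stdR N).V, (stdι N).hom r = x := by
  letI : Module ℤ N.V := N.hV2
  letI : Module ℤ (stdP N).V := (stdP N).hV2
  let W := LinearMap.ker (stdε N).hom.toLinearMap
  have hW : ∀ g, W ≤ W.comap ((stdP N).ρ g) := by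
    intro g y hy
    have hy' : (stdε N).hom y = 0 := hy
    show (stdε N).hom ((stdP N).ρ g y) = 0
    rw [Rep.hom_comm_apply, hy', map_zero]
  let s : Rep.subrepresentation (stdP N) W hW ⟶ stdP N := Rep.subtype (stdP N) W hW
  have hs : s ≫ stdε N = 0 := by
    apply Rep.hom_ext
    apply Representation.IntertwiningMap.ext
    ext y
    exact y.2
  let l := kernel.lift (stdε N) s hs
  have hl : l ≫ kernel.ι (stdε N) = s := kernel.lift_ι _ _ _
  refine ⟨l.hom ⟨x, hx⟩, ?_⟩
  have h2 := congrArg (fun f => f.hom ⟨x, hx⟩) hl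
  exact h2

/-- The additive action underlying a `Rep`. -/
def addAct (A : Rep.{0} ℤ G) : G →* AddMonoid.End A.V where
  toFun g := (A.ρ g).toAddMonoidHom
  map_one' := by ext x; simp; rfl
  map_mul' g h := by ext x; simp; rfl

@[simp]
theorem addAct_apply (A : Rep.{0} ℤ G) (g : G) (x : A.V) : addAct A g x = A.ρ g x := rfl

end Std

section Spec

open Fermat.Agent.S55.E1

variable {G : Type} [Group G]

/-- An equivariant additive map between `ℤ`-representations is a morphism of `Rep ℤ G`. -/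
theorem exists_repHom_of_add {A B : Rep.{0} ℤ G} (K : A.V →+ B.V)
    (hK : ∀ (g : G) (x : A.V), K (A.ρ g x) = B.ρ g (K x)) :
    ∃ k : A ⟶ B, ∀ x : A.V, k.hom x = K x := by
  letI : Module ℤ A.V := A.hV2
  letI : Module ℤ B.V := B.hV2
  let Kl : A.V →ₗ[ℤ] B.V :=
    { toFun := K
      map_add' := K.map_add
      map_smul' := fun n x => by simpa using map_intCast_smul K ℤ ℤ n x }
  exact ⟨Rep.ofHom ⟨Kl, fun g => by ext x; exact hK g x⟩, fun x => rfl⟩

/-- The additive map underlying a morphism of `Rep ℤ G`. -/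
def addHom {A B : Rep.{0} ℤ G} (f : A ⟶ B) : A.V →+ B.V :=
  AddMonoidHom.mk' (fun x => f.hom x) (fun a b => map_add f.hom a b)

@[simp]
theorem addHom_apply {A B : Rep.{0} ℤ G} (f : A ⟶ B) (x : A.V) : addHom f x = f.hom x := rfl

/-- **ALG4 (NORM-KILL)**, exact frozen Spec form. -/
theorem alg4Spec : ALG4Spec := by
  intro p hp G _ _ H _ _ N C _ hpN hH hC ψ
  haveI : Fact p.Prime := ⟨hp⟩
  have h1 : ∀ x : (stdP N).V, ∃ r : (stdR N).V, addHom (stdι N) r = p • x := by
    intro x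
    refine exists_stdι_eq N ?_
    rw [map_nsmul, hpN]
  have h2 : ∀ h ∈ H, ∀ x : (stdP N).V,
      ∃ r : (stdR N).V, addHom (stdι N) r = addAct (stdP N) h x - x := by
    intro h hh x
    refine exists_stdι_eq N ?_
    rw [addAct_apply, map_sub, Rep.hom_comm_apply, hH h hh, sub_self]
  obtain ⟨K, hK, hKR⟩ := alg4_add (addAct (stdR N)) (addAct (stdP N)) (addAct C)
    (addHom (stdι N)) (stdι_injective N)
    (fun g r => Rep.hom_comm_apply (stdι N) g r) p h1 H h2 hC ψ
  obtain ⟨k, hk⟩ := exists_repHom_of_add K hK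
  exact ⟨k, fun r => by rw [hk]; exact hKR r⟩

/-- **ALG2**, exact frozen Spec form: if `p N = 0` then `p • f` extends to `P`. -/
theorem alg2Spec : ALG2Spec := by
  intro p G _ N X hpN f
  classical
  have h1 : ∀ x : (stdP N).V, ∃ r : (stdR N).V, (stdι N).hom r = p • x := by
    intro x
    refine exists_stdι_eq N ?_
    rw [map_nsmul, hpN]
  choose ρ hρ using h1
  have hinj := stdι_injective N
  let K : (stdP N).V →+ X.V := AddMonoidHom.mk' (fun x => f.hom (ρ x)) (fun a b => by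
    have : ρ (a + b) = ρ a + ρ b := by
      apply hinj
      rw [map_add, hρ, hρ, hρ, smul_add]
    show f.hom (ρ (a + b)) = f.hom (ρ a) + f.hom (ρ b)
    rw [this, map_add])
  have hK : ∀ (g : G) (x : (stdP N).V), K ((stdP N).ρ g x) = X.ρ g (K x) := by
    intro g x
    have : ρ ((stdP N).ρ g x) = (stdR N).ρ g (ρ x) := by
      apply hinj
      rw [hρ, Rep.hom_comm_apply, hρ, map_nsmul]
    show f.hom (ρ ((stdP N).ρ g x)) = X.ρ g (f.hom (ρ x))
    rw [this, Rep.hom_comm_apply]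
  obtain ⟨k, hk⟩ := exists_repHom_of_add K hK
  refine ⟨k, ?_⟩
  apply Rep.hom_ext
  refine DFunLike.ext _ _ fun r => ?_
  show k.hom ((stdι N).hom r) = (p • f).hom r
  rw [hk]
  show f.hom (ρ ((stdι N).hom r)) = (p • f).hom r
  have : ρ ((stdι N).hom r) = p • r := by
    apply hinj
    rw [hρ, map_nsmul]
  rw [this, map_nsmul]
  rfl

end Spec

end Fermat.Agent.S55.E1.H423
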