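import Fermat.Agent.S55.E1.SpecAlg3
import Fermat.Agent.S55.E1.H423.Alg4Spec

/-!
# S55, engine E1, leaf ALG9a (extension criterion) — exact frozen Spec forms

* `alg9a_add` : interface-free additive form.  `ι : R ↪ P` with `p P ⊆ ι R` (`p` prime); every
  additive `φ : R → X` with `φ(R) ⊆ p X` is the restriction of an additive map `P → X`.
* `alg9aSpec : ALG9aSpec` : module form for the standard presentation `0 → R → P → N → 0`.
* `alg9aCocycleSpec : ALG9aCocycleSpec` : cocycle form.
-/

set_option autoImplicit false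
set_option linter.style.haveILetI false

open CategoryTheory CategoryTheory.Limits

namespace Fermat.Agent.S55.E1.H423

section Additive

universe u

/-- **ALG9a, additive form.**  Let `ι : R' → P` be injective with `p P ⊆ ι R'` (`p` prime).
Every additive `φ : R' → X` with values in `p X` extends to an additive map `P → X`. -/
theorem alg9a_add {R' : Type*} {P : Type u} {X : Type*} [AddCommGroup R'] [AddCommGroup P]
    [AddCommGroup X] (ι : R' →+ P) (hι : Function.Injective ι) (p : ℕ) [Fact p.Prime]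
    (hp : ∀ x : P, ∃ r : R', ι r = p • x)
    (φ : R' →+ X) (hφ : ∀ r : R', ∃ x : X, φ r = p • x) :
    ∃ K : P →+ X, ∀ r : R', K (ι r) = φ r := by
  classical
  let R : Submodule ℤ P := LinearMap.range ι.toIntLinearMap
  have hpR : ∀ x : P, (p : ℤ) • x ∈ R := by
    intro x
    obtain ⟨r, hr⟩ := hp x
    exact ⟨r, by rw [Nat.cast_smul_eq_nsmul]; exact hr⟩
  let e : R' ≃ₗ[ℤ] R := LinearEquiv.ofInjective ι.toIntLinearMap hι
  have he : ∀ r : R', ((e r : R) : P) = ι r := fun r => rfl
  let f : R →ₗ[ℤ] X := φ.toIntLinearMap ∘ₗ e.symm.toLinearMap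
  have hf : ∀ r : R, ∃ x : X, f r = (p : ℤ) • x := by
    intro r
    obtain ⟨x, hx⟩ := hφ (e.symm r)
    exact ⟨x, by rw [Nat.cast_smul_eq_nsmul]; exact hx⟩
  obtain ⟨I, x, hgen, hdvd⟩ := exists_lift_family R p hpR
  let xr : I → R := fun i => ⟨(p : ℤ) • x i, hpR (x i)⟩
  have hy : ∀ i : I, ∃ y : X, f (xr i) = (p : ℤ) • y := fun i => hf _
  choose y hy using hy
  have hrel : ∀ (m : I →₀ ℤ) (hm : Finsupp.linearCombination ℤ x m ∈ R),
      f ⟨_, hm⟩ = Finsupp.linearCombination ℤ y m := by
    intro m hm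
    have hd := hdvd m hm
    have hl : ∀ i, (m i / (p : ℤ)) * (p : ℤ) = m i := fun i => Int.ediv_mul_cancel (hd i)
    let l : I →₀ ℤ := m.mapRange (fun n => n / (p : ℤ)) (by simp)
    have h1 : (⟨_, hm⟩ : R) = Finsupp.linearCombination ℤ xr l := by
      apply Subtype.ext
      have e1 : ((Finsupp.linearCombination ℤ xr l : R) : P) =
          Finsupp.linearCombination ℤ (fun i => (p : ℤ) • x i) l := by
        rw [← Submodule.subtype_apply, LinearMap.map_finsupp_linearCombination]
        rfl
      rw [e1]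
      show Finsupp.linearCombination ℤ x m = _
      rw [Finsupp.linearCombination_apply, Finsupp.linearCombination_apply,
        Finsupp.sum_mapRange_index (by intro i; exact zero_smul _ _)]
      refine Finsupp.sum_congr fun i _ => ?_
      rw [smul_smul, hl]
    rw [h1, LinearMap.map_finsupp_linearCombination, Finsupp.linearCombination_apply,
      Finsupp.linearCombination_apply, Finsupp.sum_mapRange_index (by intro i; exact zero_smul _ _)]
    refine Finsupp.sum_congr fun i _ => ?_
    show (m i / (p : ℤ)) • f (xr i) = m i • y i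
    rw [hy, smul_smul, hl]
  obtain ⟨k, hkR, -⟩ := exists_linearMap_extend R f x y hgen hrel
  refine ⟨k.toAddMonoidHom, fun r => ?_⟩
  have h1 := hkR (e r)
  have h0 : k (ι r) = k ((e r : R) : P) := by rw [he]
  show k (ι r) = _
  rw [h0, h1]
  show φ (e.symm (e r)) = φ r
  rw [LinearEquiv.symm_apply_apply]

end Additive

section Spec

open Fermat.Agent.S55.E1
open Fermat.Agent.S55.T.H719 (ihomLin)

variable {G : Type} [Group G]

/-- The additive map underlying an element of `Hom_ℤ(A, X)`. -/
def ihomAdd {A X : Rep.{0} ℤ G} (φ : ((Rep.ihom A).obj X).V) : A.V →+ X.V :=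
  AddMonoidHom.mk' (fun r => ihomLin φ r) (fun a b => map_add (ihomLin φ) a b)

@[simp]
theorem ihomAdd_apply {A X : Rep.{0} ℤ G} (φ : ((Rep.ihom A).obj X).V) (r : A.V) :
    ihomAdd φ r = ihomLin φ r := rfl

/-- An additive map between the underlying groups of representations, as an element of
`Hom_ℤ(A, X)`. -/
def ihomOfAdd {A X : Rep.{0} ℤ G} (K : A.V →+ X.V) : ((Rep.ihom A).obj X).V :=
  letI : Module ℤ A.V := A.hV2
  letI : Module ℤ X.V := X.hV2
  ({ toFun := K
     map_add' := K.map_add
     map_smul' := fun n x => by simpa using map_intCast_smul K ℤ ℤ n x } : A.V →ₗ[ℤ] X.V)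

theorem ihomLin_ihomOfAdd {A X : Rep.{0} ℤ G} (K : A.V →+ X.V) (r : A.V) :
    ihomLin (ihomOfAdd K) r = K r := rfl

/-- Membership in `ihomImage` on elements. -/
theorem mem_ihomImage_of_add {A B X : Rep.{0} ℤ G} (a : A ⟶ B) (φ : ((Rep.ihom A).obj X).V)
    (K : B.V →+ X.V) (hK : ∀ r : A.V, K (a.hom r) = ihomLin φ r) : φ ∈ ihomImage a X := by
  refine ⟨ihomOfAdd K, ?_⟩
  show ihomLin ((ihomPre a X).hom (ihomOfAdd K)) = ihomLin φ
  exact DFunLike.ext _ _ fun r => hK r

/-- **ALG9 (a), module form**, exact frozen Spec form. -/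
theorem alg9aSpec : ALG9aSpec := by
  intro p hp G _ N X hpN φ hφ
  haveI : Fact p.Prime := ⟨hp⟩
  have h1 : ∀ x : (stdP N).V, ∃ r : (stdR N).V, addHom (stdι N) r = p • x := by
    intro x
    refine exists_stdι_eq N ?_
    rw [map_nsmul, hpN]
  obtain ⟨K, hK⟩ := alg9a_add (addHom (stdι N)) (stdι_injective N) p h1 (ihomAdd φ) hφ
  exact mem_ihomImage_of_add (stdι N) φ K hK

/-- **ALG9 (a), cocycle form**, exact frozen Spec form. -/
theorem alg9aCocycleSpec : ALG9aCocycleSpec := by
  intro p hp G _ N X hpN c hc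
  have hmem : ∀ g : G, (c.1 g) ∈ ihomImage (stdι N) X := fun g =>
    alg9aSpec p hp G N X hpN (c.1 g) (hc g)
  let c' : G → (edgeB N X).V := fun g => ⟨c.1 g, hmem g⟩
  have hc' : c' ∈ groupCohomology.cocycles₁ (edgeB N X) := by
    rw [groupCohomology.mem_cocycles₁_iff]
    intro g h
    apply Subtype.ext
    exact (groupCohomology.mem_cocycles₁_iff c.1).1 c.2 g h
  refine ⟨groupCohomology.H1π _ ⟨c', hc'⟩, ?_⟩
  unfold edgeIncl
  erw [groupCohomology.H1π_comp_map_apply]
  congr 1

end Spec

end Fermat.Agent.S55.E1.H423
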