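import Fermat.Agent.S55.E1.SpecAlg3
import Fermat.Agent.S55.E1.H423.Alg9a

/-!
# S55, engine E1, block LIM: generic cores of LIM5 (ii) and (iii)

Setting: a change of group `π : G' →* G`, `ν : N' ⟶ res π N`, `ι : res π X ⟶ X'`
(`E1/Tr/Defs.lean`), `p` prime with `p N' = 0`.

* `exists_edgeIncl_eq_trE2` (**LIM5 (iii)**): if `c` is a `1`-cocycle `G → Hom_ℤ(R, X)` such
  that all `ι (c g r)` are divisible by `p` in `X'`, then `tr [c] = incl_* b'` for some
  `b' ∈ H¹(G', 𝔹')`; hence `tr [c] = e(δ' b')` lies in the image of the edge map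
  (`isEdge_trE2`).
* `map_trEdgeB_eq_zero` (**LIM5 (ii)**): if `β : G → 𝔹` is a cocycle which is the coboundary of
  `φ ∈ Hom_ℤ(R, X)` and all `ι (φ r)` are divisible by `p` in `X'`, then `tr [β] = 0` in
  `H¹(G', 𝔹')`.  `exists_primitive` produces `β`, `φ` from `incl_* b = 0`.
* `div_of_div_on_generators` : divisibility of the values on a generating set suffices.
-/

set_option autoImplicit false
set_option linter.style.haveILetI false

open CategoryTheory CategoryTheory.Limits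

namespace Fermat.Agent.S55.E1.H423

open Fermat.Agent.S55.E1
open Fermat.Agent.S55.T.H719 (ihomLin)

section Core

variable {G G' : Type} [Group G] [Group G'] (π : G' →* G)
variable {N : Rep.{0} ℤ G} {N' : Rep.{0} ℤ G'} (ν : N' ⟶ Rep.res π N)
variable {X : Rep.{0} ℤ G} {X' : Rep.{0} ℤ G'} (ι : Rep.res π X ⟶ X')

/-- The values of `tr φ = ι ∘ φ ∘ ρ`. -/
theorem ihomLin_trIhom (φ : ((Rep.ihom (stdR N)).obj X).V) (r' : (stdR N').V) :
    ihomLin ((trIhom π (trR π ν) ι).hom φ) r' = ι.hom (ihomLin φ ((trR π ν).hom r')) := rfl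

/-- **LIM5 (iii), generic core.** -/
theorem exists_edgeIncl_eq_trE2 {p : ℕ} (hp : p.Prime) (hN' : ∀ n : N'.V, p • n = 0)
    (c : groupCohomology.cocycles₁ ((Rep.ihom (stdR N)).obj X))
    (hdiv : ∀ (g : G) (r : (stdR N).V), ∃ x' : X'.V, ι.hom (ihomLin (c g) r) = p • x') :
    ∃ b' : groupCohomology (edgeB N' X') 1,
      edgeIncl N' X' b' = trE2 π ν ι (groupCohomology.H1π _ c) := by
  let c' : groupCohomology.cocycles₁ ((Rep.ihom (stdR N')).obj X') :=
    groupCohomology.mapCocycles₁ π (trIhom π (trR π ν) ι) c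
  have hc' : ∀ (g' : G') (r' : (stdR N').V), ∃ x' : X'.V, ihomLin (c' g') r' = p • x' := by
    intro g' r'
    exact hdiv (π g') ((trR π ν).hom r')
  obtain ⟨b', hb'⟩ := alg9aCocycleSpec p hp G' N' X' hN' c' hc'
  refine ⟨b', ?_⟩
  rw [hb']
  unfold trE2
  erw [groupCohomology.H1π_comp_map_apply]

/-- **LIM5 (iii)**: after transition, the class lies in the image of the edge map. -/
theorem isEdge_trE2 {p : ℕ} (hp : p.Prime) (hN' : ∀ n : N'.V, p • n = 0)
    (c : groupCohomology.cocycles₁ ((Rep.ihom (stdR N)).obj X))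
    (hdiv : ∀ (g : G) (r : (stdR N).V), ∃ x' : X'.V, ι.hom (ihomLin (c g) r) = p • x') :
    ∃ x'' : groupCohomology ((Rep.ihom N').obj X') 2,
      IsEdge x'' (trE2 π ν ι (groupCohomology.H1π _ c)) := by
  obtain ⟨b', hb'⟩ := exists_edgeIncl_eq_trE2 π ν ι hp hN' c hdiv
  exact ⟨edgeδ N' X' b', b', rfl, hb'⟩

/-- **LIM5 (ii), generic core.**  If the cocycle `β : G → 𝔹` is the coboundary of
`φ ∈ Hom_ℤ(R, X)` and the values of `ι ∘ φ` are divisible by `p` in `X'`, then `tr [β] = 0`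
in `H¹(G', 𝔹')`. -/
theorem map_trEdgeB_eq_zero {p : ℕ} (hp : p.Prime) (hN' : ∀ n : N'.V, p • n = 0)
    (β : groupCohomology.cocycles₁ (edgeB N X)) (φ : ((Rep.ihom (stdR N)).obj X).V)
    (hβ : ∀ g : G, ((β g).1 : ((Rep.ihom (stdR N)).obj X).V) =
      ((Rep.ihom (stdR N)).obj X).ρ g φ - φ)
    (hdiv : ∀ r : (stdR N).V, ∃ x' : X'.V, ι.hom (ihomLin φ r) = p • x') :
    (groupCohomology.map π (trEdgeB π ν ι) 1).hom (groupCohomology.H1π _ β) = 0 := by
  erw [groupCohomology.H1π_comp_map_apply]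
  rw [groupCohomology.H1π_eq_zero_iff]
  have hmem : (trIhom π (trR π ν) ι).hom φ ∈ ihomImage (stdι N') X' :=
    alg9aSpec p hp G' N' X' hN' _ (fun r' => hdiv _)
  refine ⟨⟨(trIhom π (trR π ν) ι).hom φ, hmem⟩, ?_⟩
  funext g'
  apply Subtype.ext
  have h1 : (trIhom π (trR π ν) ι).hom ((β (π g')).1) =
      (trIhom π (trR π ν) ι).hom (((Rep.ihom (stdR N)).obj X).ρ (π g') φ) -
        (trIhom π (trR π ν) ι).hom φ := by
    rw [hβ, map_sub]
  have h2 : (trIhom π (trR π ν) ι).hom (((Rep.ihom (stdR N)).obj X).ρ (π g') φ) =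
      ((Rep.ihom (stdR N')).obj X').ρ g' ((trIhom π (trR π ν) ι).hom φ) :=
    Rep.hom_comm_apply (trIhom π (trR π ν) ι) g' φ
  rw [h2] at h1
  exact h1.symm

end Core

section Primitive

variable {G : Type} [Group G] {N X : Rep.{0} ℤ G}

/-- A class `b ∈ H¹(G, 𝔹)` with `incl_* b = 0` is represented by a cocycle which is the
coboundary of some `φ ∈ Hom_ℤ(R, X)`. -/
theorem exists_primitive (b : groupCohomology (edgeB N X) 1) (hb : edgeIncl N X b = 0) :
    ∃ (β : groupCohomology.cocycles₁ (edgeB N X)) (φ : ((Rep.ihom (stdR N)).obj X).V),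
      groupCohomology.H1π _ β = b ∧
      ∀ g : G, ((β g).1 : ((Rep.ihom (stdR N)).obj X).V) =
        ((Rep.ihom (stdR N)).obj X).ρ g φ - φ := by
  induction b using groupCohomology.H1_induction_on with
  | h β =>
    unfold edgeIncl at hb
    erw [groupCohomology.H1π_comp_map_apply] at hb
    rw [groupCohomology.H1π_eq_zero_iff] at hb
    obtain ⟨φ, hφ⟩ := hb
    refine ⟨β, φ, rfl, fun g => ?_⟩
    have := congrFun hφ g
    exact this.symm

end Primitive

section Wrap

variable {G : Type} [Group G] {N X : Rep.{0} ℤ G}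

/-- **LIM5 (ii)**, in terms of `b ∈ H¹(G, 𝔹)`: if `incl_* b = 0` there is `φ ∈ Hom_ℤ(R, X)` such
that `tr b = 0` for every transition which makes the values of `φ` divisible by `p`. -/
theorem exists_forall_map_trEdgeB_eq_zero {p : ℕ} (hp : p.Prime)
    (b : groupCohomology (edgeB N X) 1) (hb : edgeIncl N X b = 0) :
    ∃ φ : ((Rep.ihom (stdR N)).obj X).V,
      ∀ (G' : Type) [Group G'] (π : G' →* G) (N' : Rep.{0} ℤ G') (ν : N' ⟶ Rep.res π N)
        (X' : Rep.{0} ℤ G') (ι : Rep.res π X ⟶ X'), (∀ n : N'.V, p • n = 0) →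
        (∀ r : (stdR N).V, ∃ x' : X'.V, ι.hom (ihomLin φ r) = p • x') →
        (groupCohomology.map π (trEdgeB π ν ι) 1).hom b = 0 := by
  obtain ⟨β, φ, rfl, hβ⟩ := exists_primitive b hb
  exact ⟨φ, fun G' _ π N' ν X' ι hN' hdiv => map_trEdgeB_eq_zero π ν ι hp hN' β φ hβ hdiv⟩

/-- **LIM5 (ii)**, in terms of `x ∈ H²(G, Hom_ℤ(N, X))`: if `e(x) = 0` there is
`φ ∈ Hom_ℤ(R, X)` such that `inf x = 0` for every transition which makes the values of `φ`
divisible by `p`. -/
theorem exists_forall_inf_eq_zero (h10 : ALG10EdgeSpec) {p : ℕ} (hp : p.Prime)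
    (x : groupCohomology ((Rep.ihom N).obj X) 2) (hx : IsEdge x (0 : E2 N X)) :
    ∃ φ : ((Rep.ihom (stdR N)).obj X).V,
      ∀ (G' : Type) [Group G'] (π : G' →* G) (N' : Rep.{0} ℤ G') (ν : N' ⟶ Rep.res π N)
        (X' : Rep.{0} ℤ G') (ι : Rep.res π X ⟶ X'), (∀ n : N'.V, p • n = 0) →
        (∀ r : (stdR N).V, ∃ x' : X'.V, ι.hom (ihomLin φ r) = p • x') →
        (groupCohomology.map π (trIhom π ν ι) 2).hom x = 0 := by
  obtain ⟨b, rfl, hb⟩ := hx
  obtain ⟨φ, hφ⟩ := exists_forall_map_trEdgeB_eq_zero hp b hb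
  refine ⟨φ, fun G' _ π N' ν X' ι hN' hdiv => ?_⟩
  have h1 := (h10 G G' π N N' ν X X' ι b).1
  rw [← h1, hφ G' π N' ν X' ι hN' hdiv, map_zero]

end Wrap

section Generators

variable {G G' : Type} [Group G] [Group G'] (π : G' →* G)
variable {A X : Rep.{0} ℤ G} {X' : Rep.{0} ℤ G'} (ι : Rep.res π X ⟶ X')

/-- Divisibility of the values of `ι ∘ φ` on a generating set suffices. -/
theorem div_of_div_on_generators (p : ℕ) (φ : ((Rep.ihom A).obj X).V) (s : Set A.V)
    (hs : AddSubgroup.closure s = ⊤)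
    (h : ∀ r ∈ s, ∃ x' : X'.V, ι.hom (ihomLin φ r) = p • x') :
    ∀ r : A.V, ∃ x' : X'.V, ι.hom (ihomLin φ r) = p • x' := by
  intro r
  have hr : r ∈ AddSubgroup.closure s := by rw [hs]; exact AddSubgroup.mem_top r
  induction hr using AddSubgroup.closure_induction with
  | mem y hy => exact h y hy
  | zero => exact ⟨0, by rw [map_zero, map_zero, smul_zero]⟩
  | add y z _ _ hy hz =>
    obtain ⟨a, ha⟩ := hy
    obtain ⟨b, hb⟩ := hz
    exact ⟨a + b, by rw [map_add, map_add, ha, hb, smul_add]⟩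
  | neg y _ hy =>
    obtain ⟨a, ha⟩ := hy
    exact ⟨-a, by rw [map_neg, map_neg, ha, smul_neg]⟩

/-- A finitely generated `ℤ`-module (w.r.t. the module structure of the representation) is
generated, as an additive group, by a finite set. -/
theorem exists_finset_closure_eq_top (A : Rep.{0} ℤ G)
    (hA : @Module.Finite ℤ A.V _ _ A.hV2) :
    ∃ s : Finset A.V, AddSubgroup.closure (s : Set A.V) = ⊤ := by
  letI : Module ℤ A.V := A.hV2
  obtain ⟨s, hs⟩ := hA.fg_top
  refine ⟨s, ?_⟩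
  have key : ∀ x : A.V, x ∈ Submodule.span ℤ (s : Set A.V) →
      x ∈ AddSubgroup.closure (s : Set A.V) := by
    intro x hx
    induction hx using Submodule.span_induction with
    | mem y hy => exact AddSubgroup.subset_closure hy
    | zero => exact AddSubgroup.zero_mem _
    | add y z _ _ hy hz => exact AddSubgroup.add_mem _ hy hz
    | smul n y _ hy =>
      have h1 : @HSMul.hSMul ℤ A.V A.V (@instHSMul ℤ A.V A.hV2.toSMul) n y = n • y :=
        int_smul_eq_zsmul A.hV2 n y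
      rw [h1]
      exact AddSubgroup.zsmul_mem _ hy n
  rw [eq_top_iff]
  intro x _
  exact key x (by rw [hs]; exact Submodule.mem_top)

end Generators

end Fermat.Agent.S55.E1.H423
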