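import Fermat.Agent.S55.Spec.Datum

/-!
# S55, engine E1, block LIM: uniform `p`-divisibility of `S`-units in the tower (GD9)

`SUnitsDivSpec` makes every single `S`-unit of a level a `p`-th power (of an `S`-unit) at some
higher level.  Here: the same for finitely many `S`-units at once, given directedness of the
levels (`IsDirected (Level S) (· ≤ ·)`, proved by helper603).

* `trUnits_trUnits`, `isSUnit_trUnits` : bookkeeping;
* `exists_level_div_finset` : uniform divisibility for a finite set of `S`-units;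
* `exists_level_div_closure` : the same for all elements of the subgroup generated by a finite
  set of `S`-units.
-/

set_option autoImplicit false

open CategoryTheory

namespace Fermat.Agent.S55.E1.H423

open Fermat.Agent.S55.Tow

variable {S : Finset Nat.Primes}

theorem trUnits_trUnits {L L' L'' : Level S} (h : L ≤ L') (h' : L' ≤ L'') (e : L.units.V) :
    (Level.trUnits h').hom ((Level.trUnits h).hom e) = (Level.trUnits (h.trans h')).hom e := rfl

theorem isSUnit_trUnits {L L' : Level S} (h : L ≤ L') {e : L.units.V} (he : L.IsSUnit e) :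
    L'.IsSUnit ((Level.trUnits h).hom e) := he

theorem isSUnit_zero (L : Level S) : L.IsSUnit (0 : L.units.V) := by
  intro ℓ _ A _
  refine ⟨?_, ?_⟩
  · show ((1 : Qbarˣ) : Qbar) ∈ A
    rw [Units.val_one]; exact A.one_mem
  · show (((1 : Qbarˣ)⁻¹ : Qbarˣ) : Qbar) ∈ A
    rw [inv_one, Units.val_one]; exact A.one_mem

theorem isSUnit_add (L : Level S) {e e' : L.units.V} (he : L.IsSUnit e) (he' : L.IsSUnit e') :
    L.IsSUnit (e + e') := by
  intro ℓ hℓ A hA
  obtain ⟨h1, h2⟩ := he ℓ hℓ A hA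
  obtain ⟨h1', h2'⟩ := he' ℓ hℓ A hA
  refine ⟨?_, ?_⟩
  · show ((L.val e * L.val e' : Qbarˣ) : Qbar) ∈ A
    rw [Units.val_mul]; exact A.mul_mem _ _ h1 h1'
  · show (((L.val e * L.val e')⁻¹ : Qbarˣ) : Qbar) ∈ A
    rw [mul_inv, Units.val_mul]; exact A.mul_mem _ _ h2 h2'

theorem isSUnit_neg (L : Level S) {e : L.units.V} (he : L.IsSUnit e) : L.IsSUnit (-e) := by
  intro ℓ hℓ A hA
  obtain ⟨h1, h2⟩ := he ℓ hℓ A hA
  refine ⟨?_, ?_⟩
  · show (((L.val e)⁻¹ : Qbarˣ) : Qbar) ∈ A
    exact h2
  · show ((((L.val e)⁻¹)⁻¹ : Qbarˣ) : Qbar) ∈ A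
    rw [inv_inv]; exact h1

/-- **GD9, uniform form**: finitely many `S`-units become divisible by `p` (by `S`-units) at a
common higher level. -/
theorem exists_level_div_finset [IsDirected (Level S) (· ≤ ·)] {p : ℕ}
    (h : SUnitsDivSpec S p) (L : Level S) (s : Finset L.units.V)
    (hs : ∀ e ∈ s, L.IsSUnit e) :
    ∃ (L' : Level S) (hLL' : L ≤ L'), ∀ e ∈ s, ∃ e' : L'.units.V, L'.IsSUnit e' ∧
      p • e' = (Level.trUnits hLL').hom e := by
  classical
  induction s using Finset.induction_on with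
  | empty => exact ⟨L, le_rfl, fun e he => absurd he (Finset.notMem_empty e)⟩
  | insert a s _ ih =>
    obtain ⟨L₁, h₁, hL₁⟩ := ih (fun e he => hs e (Finset.mem_insert_of_mem he))
    obtain ⟨L₂, h₂, a', ha', ha⟩ := h.1 L a (hs a (Finset.mem_insert_self a s))
    obtain ⟨L', h₁', h₂'⟩ := exists_ge_ge L₁ L₂
    refine ⟨L', h₁.trans h₁', fun e he => ?_⟩
    rcases Finset.mem_insert.1 he with rfl | he
    · refine ⟨(Level.trUnits h₂').hom a', isSUnit_trUnits h₂' ha', ?_⟩
      rw [← map_nsmul, ha]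
      rfl
    · obtain ⟨e', he', hee'⟩ := hL₁ e he
      refine ⟨(Level.trUnits h₁').hom e', isSUnit_trUnits h₁' he', ?_⟩
      rw [← map_nsmul, hee']
      rfl

/-- **GD9, uniform form for finitely generated subgroups.** -/
theorem exists_level_div_closure [IsDirected (Level S) (· ≤ ·)] {p : ℕ}
    (h : SUnitsDivSpec S p) (L : Level S) (s : Finset L.units.V)
    (hs : ∀ e ∈ s, L.IsSUnit e) :
    ∃ (L' : Level S) (hLL' : L ≤ L'), ∀ e ∈ AddSubgroup.closure (s : Set L.units.V),
      ∃ e' : L'.units.V, L'.IsSUnit e' ∧ p • e' = (Level.trUnits hLL').hom e := by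
  obtain ⟨L', hLL', hL'⟩ := exists_level_div_finset h L s hs
  refine ⟨L', hLL', fun e he => ?_⟩
  induction he using AddSubgroup.closure_induction with
  | mem y hy => exact hL' y hy
  | zero => exact ⟨0, isSUnit_zero L', by rw [map_zero, smul_zero]⟩
  | add y z _ _ hy hz =>
    obtain ⟨a, ha, hay⟩ := hy
    obtain ⟨b, hb, hbz⟩ := hz
    exact ⟨a + b, isSUnit_add L' ha hb, by rw [map_add, smul_add, hay, hbz]⟩
  | neg y _ hy =>
    obtain ⟨a, ha, hay⟩ := hy
    exact ⟨-a, isSUnit_neg L' ha, by rw [map_neg, smul_neg, hay]⟩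

end Fermat.Agent.S55.E1.H423
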