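import Fermat.Agent.S55.E1.Lim.Obj
import Fermat.Agent.S55.E1.H423.Lim5Core
import Fermat.Agent.S55.E1.H423.UnifDiv

/-!
# S55, engine E1, block LIM: LIM5 (ii) and (iii) ON THE TOWER

Coefficients `X = E(F) = Lim.sUnits L` (the `S`-units of a level), transition `Lim.trS`.
Input: `Tow.SUnitsDivSpec S p` (GD9) and directedness of the levels.

* `exists_level_div_sUnits` : finitely many elements of `E(F)` become divisible by `p` in
  `E(F')` for all `F' ≥ F₁`;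
* `lim5_iii_tower` : every class of `𝔈²_F(E)` lies, after transition to any `F' ≥ F₁`, in the
  image of `incl_* : H¹(G', 𝔹') → 𝔈²_{F'}(E)`;  `lim5_iii_isEdge` : hence in the image of `e`;
* `lim5_ii_tower` : `b ∈ H¹(G, 𝔹)` with `incl_* b = 0` dies in `H¹(G', 𝔹')` for `F' ≥ F₁`;
* `lim5_ii_inf` : `IsEdge x 0 ⇒ inf x = 0` in `H²(G', Hom_ℤ(N', E(F')))` for `F' ≥ F₁`.

The modules `N'` at higher levels are an arbitrary family `N' L' h` with
`ν : N' ⟶ Res N`, `p N' = 0` (in the engine: `c.NL`, `c.ν`).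
-/

set_option autoImplicit false
set_option linter.style.haveILetI false

open CategoryTheory CategoryTheory.Limits

namespace Fermat.Agent.S55.E1.H423

open Fermat.Agent.S55.E1 Fermat.Agent.S55.Tow
open Fermat.Agent.S55.T.H719 (ihomLin)

variable {S : Finset Nat.Primes}

/-- If `x ^ p` lies in a valuation subring (`p > 0`) then so does `x`. -/
theorem mem_valuationSubring_of_pow_mem {K : Type*} [Field K] (A : ValuationSubring K) {x : K}
    {p : ℕ} (hp : 0 < p) (hx : x ^ p ∈ A) : x ∈ A := by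
  rcases A.mem_or_inv_mem x with h | h
  · exact h
  · by_cases hx0 : x = 0
    · rw [hx0]; exact A.zero_mem
    · have h1 : x = x ^ p * x⁻¹ ^ (p - 1) := by
        have h2 : x ^ p = x ^ (p - 1) * x := by
          rw [← pow_succ, Nat.sub_add_cancel hp]
        rw [h2, inv_pow, mul_comm (x ^ (p - 1)) x, mul_assoc,
          mul_inv_cancel₀ (pow_ne_zero _ hx0), mul_one]
      rw [h1]
      exact A.mul_mem _ _ hx (A.pow_mem h _)

/-- If `p • y` is an `S`-unit (`p > 0`) then `y` is an `S`-unit. -/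
theorem isSUnit_of_nsmul (L : Level S) {p : ℕ} (hp : 0 < p) {y : L.units.V}
    (hy : L.IsSUnit (p • y)) : L.IsSUnit y := by
  intro ℓ hℓ A hA
  obtain ⟨h1, h2⟩ := hy ℓ hℓ A hA
  have e1 : L.val (p • y) = (L.val y) ^ p := rfl
  rw [e1] at h1 h2
  refine ⟨mem_valuationSubring_of_pow_mem A hp ?_, mem_valuationSubring_of_pow_mem A hp ?_⟩
  · rw [← Units.val_pow_eq_pow_val]; exact h1
  · rw [← Units.val_pow_eq_pow_val, inv_pow]; exact h2

/-- If `p • y ∈ E(F)` (`p > 0`) then `y ∈ E(F)`. -/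
theorem mem_sUnitsAdd_of_nsmul (L : Level S) {p : ℕ} (hp : 0 < p) {y : L.units.V}
    (hy : p • y ∈ Lim.sUnitsAdd L) : y ∈ Lim.sUnitsAdd L := by
  intro g
  apply isSUnit_of_nsmul L hp
  have := hy g
  rwa [map_nsmul] at this

/-- Divisibility by `p` in `Fˣ` of an element of `E(F)` is divisibility in `E(F)`. -/
theorem exists_sUnits_div {L L' : Level S} (h : L ≤ L') {p : ℕ} (hp : 0 < p) (e : (Lim.sUnits L).V)
    (e' : L'.units.V) (he' : p • e' = (Level.trUnits h).hom ((Lim.sIncl L).hom e)) :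
    ∃ x' : (Lim.sUnits L').V, (Lim.trS h).hom e = p • x' := by
  have hmem : e' ∈ Lim.sUnitsAdd L' := by
    apply mem_sUnitsAdd_of_nsmul L' hp
    rw [he']
    exact Lim.trUnits_mem h _ (Lim.sIncl_mem L e)
  let x' : (Lim.sUnits L').V := Lim.subMk (hW := Lim.sUnitsAdd_stable L') e' hmem
  have hx' : (Lim.sIncl L').hom x' = e' := rfl
  refine ⟨x', ?_⟩
  apply Lim.sIncl_injective L'
  rw [Lim.sIncl_trS, map_nsmul, hx', he']

/-- Divisibility persists at higher levels. -/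
theorem sUnits_div_mono {L L₁ L' : Level S} (h₁ : L ≤ L₁) (h' : L₁ ≤ L') {p : ℕ}
    (e : (Lim.sUnits L).V) (hdiv : ∃ x₁ : (Lim.sUnits L₁).V, (Lim.trS h₁).hom e = p • x₁) :
    ∃ x' : (Lim.sUnits L').V, (Lim.trS (h₁.trans h')).hom e = p • x' := by
  obtain ⟨x₁, hx₁⟩ := hdiv
  refine ⟨(Lim.trS h').hom x₁, ?_⟩
  have h1 : (Lim.trS (h₁.trans h')).hom e = (Lim.trS h').hom ((Lim.trS h₁).hom e) := rfl
  rw [h1, hx₁, map_nsmul]

/-- **GD9 for finitely many elements of `E(F)`**, cofinal form. -/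
theorem exists_level_div_sUnits [IsDirected (Level S) (· ≤ ·)] {p : ℕ} (hp : 0 < p)
    (hdiv : SUnitsDivSpec S p) (L : Level S) (s : Finset (Lim.sUnits L).V) :
    ∃ (L₁ : Level S), L ≤ L₁ ∧ ∀ (L' : Level S) (h : L ≤ L'), L₁ ≤ L' → ∀ e ∈ s,
      ∃ x' : (Lim.sUnits L').V, (Lim.trS h).hom e = p • x' := by
  classical
  obtain ⟨L₁, h₁, hL₁⟩ := exists_level_div_finset hdiv L (s.image (fun e => (Lim.sIncl L).hom e))
    (fun x hx => by
      obtain ⟨e, -, rfl⟩ := Finset.mem_image.1 hx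
      exact Lim.isSUnit_of_mem L (Lim.sIncl_mem L e))
  refine ⟨L₁, h₁, fun L' h h' e he => ?_⟩
  obtain ⟨e₁, -, he₁⟩ := hL₁ _ (Finset.mem_image_of_mem _ he)
  exact sUnits_div_mono h₁ h' e (exists_sUnits_div h₁ hp e e₁ he₁)

section Tower

variable [IsDirected (Level S) (· ≤ ·)] {p : ℕ}

/-- **LIM5 (iii) on the tower**, cocycle form. -/
theorem lim5_iii_tower_cocycle (hp : p.Prime) (hdiv : SUnitsDivSpec S p) (L : Level S)
    (N : Rep.{0} ℤ L.Gal) (hfin : @Module.Finite ℤ (stdR N).V _ _ (stdR N).hV2)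
    (c : groupCohomology.cocycles₁ ((Rep.ihom (stdR N)).obj (Lim.sUnits L))) :
    ∃ L₁ : Level S, L ≤ L₁ ∧ ∀ (L' : Level S) (h : L ≤ L'), L₁ ≤ L' →
      ∀ (N' : Rep.{0} ℤ L'.Gal) (ν : N' ⟶ Rep.res (Level.proj h) N), (∀ n : N'.V, p • n = 0) →
        ∃ b' : groupCohomology (edgeB N' (Lim.sUnits L')) 1,
          edgeIncl N' (Lim.sUnits L') b' =
            trE2 (Level.proj h) ν (Lim.trS h) (groupCohomology.H1π _ c) := by
  classical
  obtain ⟨s, hs⟩ := exists_finset_closure_eq_top (stdR N) hfin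
  haveI : Fintype L.Gal := Fintype.ofFinite _
  let vals : Finset (Lim.sUnits L).V :=
    (Finset.univ : Finset L.Gal).biUnion (fun g => s.image (fun r => ihomLin (c g) r))
  obtain ⟨L₁, h₁, hL₁⟩ := exists_level_div_sUnits hp.pos hdiv L vals
  refine ⟨L₁, h₁, fun L' h h' N' ν hN' => ?_⟩
  refine exists_edgeIncl_eq_trE2 (Level.proj h) ν (Lim.trS h) hp hN' c (fun g => ?_)
  refine div_of_div_on_generators (Level.proj h) (Lim.trS h) p (c g) (s : Set (stdR N).V) hs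
    (fun r hr => ?_)
  refine hL₁ L' h h' _ ?_
  exact Finset.mem_biUnion.2 ⟨g, Finset.mem_univ g, Finset.mem_image_of_mem _ hr⟩

/-- **LIM5 (iii) on the tower**: every class of `𝔈²_F(E)` lies, after transition to any
`F' ≥ F₁`, in the image of `incl_* : H¹(G', 𝔹') → 𝔈²_{F'}(E)`. -/
theorem lim5_iii_tower (hp : p.Prime) (hdiv : SUnitsDivSpec S p) (L : Level S)
    (N : Rep.{0} ℤ L.Gal) (hfin : @Module.Finite ℤ (stdR N).V _ _ (stdR N).hV2)
    (y : E2 N (Lim.sUnits L)) :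
    ∃ L₁ : Level S, L ≤ L₁ ∧ ∀ (L' : Level S) (h : L ≤ L'), L₁ ≤ L' →
      ∀ (N' : Rep.{0} ℤ L'.Gal) (ν : N' ⟶ Rep.res (Level.proj h) N), (∀ n : N'.V, p • n = 0) →
        ∃ b' : groupCohomology (edgeB N' (Lim.sUnits L')) 1,
          edgeIncl N' (Lim.sUnits L') b' = trE2 (Level.proj h) ν (Lim.trS h) y := by
  induction y using groupCohomology.H1_induction_on with
  | h c => exact lim5_iii_tower_cocycle hp hdiv L N hfin c

/-- **LIM5 (iii) on the tower**, edge form: after transition to any `F' ≥ F₁` the class is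
`e(x')` for some `x' ∈ H²(G', Hom_ℤ(N', E(F')))`. -/
theorem lim5_iii_isEdge (hp : p.Prime) (hdiv : SUnitsDivSpec S p) (L : Level S)
    (N : Rep.{0} ℤ L.Gal) (hfin : @Module.Finite ℤ (stdR N).V _ _ (stdR N).hV2)
    (y : E2 N (Lim.sUnits L)) :
    ∃ L₁ : Level S, L ≤ L₁ ∧ ∀ (L' : Level S) (h : L ≤ L'), L₁ ≤ L' →
      ∀ (N' : Rep.{0} ℤ L'.Gal) (ν : N' ⟶ Rep.res (Level.proj h) N), (∀ n : N'.V, p • n = 0) →
        ∃ x' : groupCohomology ((Rep.ihom N').obj (Lim.sUnits L')) 2,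
          IsEdge x' (trE2 (Level.proj h) ν (Lim.trS h) y) := by
  obtain ⟨L₁, h₁, hL₁⟩ := lim5_iii_tower hp hdiv L N hfin y
  refine ⟨L₁, h₁, fun L' h h' N' ν hN' => ?_⟩
  obtain ⟨b', hb'⟩ := hL₁ L' h h' N' ν hN'
  exact ⟨edgeδ N' (Lim.sUnits L') b', b', rfl, hb'⟩

/-- **LIM5 (ii) on the tower**: a class `b ∈ H¹(G, 𝔹)` with `incl_* b = 0` dies in
`H¹(G', 𝔹')` for all `F' ≥ F₁`. -/
theorem lim5_ii_tower (hp : p.Prime) (hdiv : SUnitsDivSpec S p) (L : Level S)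
    (N : Rep.{0} ℤ L.Gal) (hfin : @Module.Finite ℤ (stdR N).V _ _ (stdR N).hV2)
    (b : groupCohomology (edgeB N (Lim.sUnits L)) 1) (hb : edgeIncl N (Lim.sUnits L) b = 0) :
    ∃ L₁ : Level S, L ≤ L₁ ∧ ∀ (L' : Level S) (h : L ≤ L'), L₁ ≤ L' →
      ∀ (N' : Rep.{0} ℤ L'.Gal) (ν : N' ⟶ Rep.res (Level.proj h) N), (∀ n : N'.V, p • n = 0) →
        (groupCohomology.map (Level.proj h) (trEdgeB (Level.proj h) ν (Lim.trS h)) 1).hom b =
          0 := by
  classical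
  obtain ⟨s, hs⟩ := exists_finset_closure_eq_top (stdR N) hfin
  obtain ⟨φ, hφ⟩ := exists_forall_map_trEdgeB_eq_zero hp b hb
  obtain ⟨L₁, h₁, hL₁⟩ := exists_level_div_sUnits hp.pos hdiv L (s.image (fun r => ihomLin φ r))
  refine ⟨L₁, h₁, fun L' h h' N' ν hN' => ?_⟩
  refine hφ L'.Gal (Level.proj h) N' ν (Lim.sUnits L') (Lim.trS h) hN' ?_
  refine div_of_div_on_generators (Level.proj h) (Lim.trS h) p φ (s : Set (stdR N).V) hs
    (fun r hr => ?_)
  exact hL₁ L' h h' _ (Finset.mem_image_of_mem _ hr)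

/-- **LIM5 (ii) on the tower**, `H²`-form: if `e(x) = 0` then `inf x = 0` in
`H²(G', Hom_ℤ(N', E(F')))` for all `F' ≥ F₁`. -/
theorem lim5_ii_inf (h10 : ALG10EdgeSpec) (hp : p.Prime) (hdiv : SUnitsDivSpec S p)
    (L : Level S) (N : Rep.{0} ℤ L.Gal)
    (hfin : @Module.Finite ℤ (stdR N).V _ _ (stdR N).hV2)
    (x : groupCohomology ((Rep.ihom N).obj (Lim.sUnits L)) 2)
    (hx : IsEdge x (0 : E2 N (Lim.sUnits L))) :
    ∃ L₁ : Level S, L ≤ L₁ ∧ ∀ (L' : Level S) (h : L ≤ L'), L₁ ≤ L' →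
      ∀ (N' : Rep.{0} ℤ L'.Gal) (ν : N' ⟶ Rep.res (Level.proj h) N), (∀ n : N'.V, p • n = 0) →
        (groupCohomology.map (Level.proj h) (trIhom (Level.proj h) ν (Lim.trS h)) 2).hom x =
          0 := by
  obtain ⟨b, rfl, hb⟩ := hx
  obtain ⟨L₁, h₁, hL₁⟩ := lim5_ii_tower hp hdiv L N hfin b hb
  refine ⟨L₁, h₁, fun L' h h' N' ν hN' => ?_⟩
  have h1 := (h10 L.Gal L'.Gal (Level.proj h) N N' ν (Lim.sUnits L) (Lim.sUnits L')
    (Lim.trS h) b).1
  rw [← h1, hL₁ L' h h' N' ν hN', map_zero]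

end Tower

end Fermat.Agent.S55.E1.H423
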