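import Fermat.Agent.S55.E1.SpecAlg3
import Fermat.Agent.S55.E1.H423.Alg9a
import Fermat.Agent.S55.E1.H295.Alg11Ker
import Fermat.Agent.S55.E1.H354.E2Shapiro

/-!
# S55, engine E1: comparison of presentations (CMP)

Let `φ : D →* G` be injective and `N` a `G`-module.  There are two presentations of `N|_D` by
free `ℤ[D]`-modules: the standard presentation `0 → R_D → P_D → N|_D → 0` of `Rep.res φ N`
and the restriction to `D` of the standard presentation `0 → R → P → N → 0` of `N`.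
They are compared by `trP φ 𝟙 : P_D → P|_D`, `trR φ 𝟙 : R_D → R|_D`.

Main result: for every `D`-module `X` the pull-back along `trR φ 𝟙`

  `H¹(D, Hom_ℤ(R|_D, X)) → H¹(D, Hom_ℤ(R_D, X))`

is bijective (`cmp_bijective`).  Consequences: `trE2_eq_cmp`, `trE2_eq_zero_iff` and
`E2_dies_iff_trE2` (E2-Shapiro of helper354 in terms of `trE2 φ 𝟙 (flat φ u)`, i.e. for the
STANDARD presentation of `N|_D` over `D`, as used by ALG9a, ALG10, ALG11).
-/

set_option autoImplicit false
set_option linter.style.haveILetI false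

open CategoryTheory CategoryTheory.Limits

namespace Fermat.Agent.S55.E1.H423

open Fermat.Agent.S55.E1
open Fermat.Agent.S55.T.H719 (ihomLin)

/-! ## Coset representatives -/

section Coset

variable {G D : Type} [Group G] [Group D] (φ : D →* G)

/-- A representative of the right coset `φ(D) g`; it is `1` on `φ(D)`. -/
noncomputable def cosetRep (g : G) : G :=
  ((Quotient.mk (QuotientGroup.rightRel φ.range) 1).out)⁻¹ *
    (Quotient.mk (QuotientGroup.rightRel φ.range) g).out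

private theorem out_mem (g : G) :
    (Quotient.mk (QuotientGroup.rightRel φ.range) g).out * g⁻¹ ∈ φ.range := by
  have h : (QuotientGroup.rightRel φ.range) g
      ((Quotient.mk (QuotientGroup.rightRel φ.range) g).out) :=
    Quotient.exact (Quotient.out_eq _).symm
  exact QuotientGroup.rightRel_apply.1 h

theorem cosetRep_mem (g : G) : g * (cosetRep φ g)⁻¹ ∈ φ.range := by
  have h1 := out_mem φ g
  have h2 := out_mem φ 1
  rw [inv_one, mul_one] at h2
  have h3 : cosetRep φ g * g⁻¹ ∈ φ.range := by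
    unfold cosetRep
    rw [mul_assoc]
    exact φ.range.mul_mem (φ.range.inv_mem h2) h1
  have := φ.range.inv_mem h3
  rwa [mul_inv_rev, inv_inv] at this

theorem cosetRep_mul (d : D) (g : G) : cosetRep φ (φ d * g) = cosetRep φ g := by
  unfold cosetRep
  have h : (Quotient.mk (QuotientGroup.rightRel φ.range) (φ d * g)) =
      Quotient.mk (QuotientGroup.rightRel φ.range) g := by
    apply Quotient.sound
    apply QuotientGroup.rightRel_apply.2
    rw [mul_inv_rev, ← mul_assoc, mul_inv_cancel, one_mul]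
    exact φ.range.inv_mem ⟨d, rfl⟩
  rw [h]

theorem cosetRep_range (d : D) : cosetRep φ (φ d) = 1 := by
  have := cosetRep_mul φ d 1
  rw [mul_one] at this
  rw [this]
  unfold cosetRep
  rw [inv_mul_cancel]

/-- The `D`-coordinate of `g`: `g = φ (cosetCoord g) * cosetRep g`. -/
noncomputable def cosetCoord (g : G) : D := Classical.choose (cosetRep_mem φ g)

theorem cosetCoord_spec (g : G) : φ (cosetCoord φ g) * cosetRep φ g = g := by
  have h := Classical.choose_spec (cosetRep_mem φ g)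
  unfold cosetCoord
  rw [h, inv_mul_cancel_right]

variable {φ}

theorem cosetCoord_mul (hφ : Function.Injective φ) (d : D) (g : G) :
    cosetCoord φ (φ d * g) = d * cosetCoord φ g := by
  apply hφ
  have h1 := cosetCoord_spec φ (φ d * g)
  have h2 := cosetCoord_spec φ g
  rw [cosetRep_mul] at h1
  rw [map_mul]
  have : φ (cosetCoord φ (φ d * g)) * cosetRep φ g = φ d * φ (cosetCoord φ g) * cosetRep φ g := by
    rw [h1, mul_assoc, h2]
  exact mul_right_cancel this

theorem cosetCoord_range (hφ : Function.Injective φ) (d : D) : cosetCoord φ (φ d) = d := by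
  apply hφ
  have h1 := cosetCoord_spec φ (φ d)
  rwa [cosetRep_range, mul_one] at h1

end Coset

/-! ## The retraction `pr : P → P_D` -/

section Pr

variable {G D : Type} [Group G] [Group D] (φ : D →* G) (N : Rep.{0} ℤ G)

/-- The basis element `m • g e_n` of `P = ℤ[G]^{(N)}`. -/
noncomputable def bvec (n : N.V) (g : G) (m : ℤ) : (stdP N).V :=
  (Finsupp.single n (MonoidAlgebra.single g m) : N.V →₀ MonoidAlgebra ℤ G)

theorem stdP_ρ_bvec (h : G) (n : N.V) (g : G) (m : ℤ) :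
    (stdP N).ρ h (bvec N n g m) = bvec N n (h * g) m :=
  Representation.free_single_single h g n m

theorem stdε_bvec (n : N.V) (g : G) (m : ℤ) :
    (stdε N).hom (bvec N n g m) = m • N.ρ g n := by
  have h2 : (stdε N).hom (bvec N n g m) = @HSMul.hSMul ℤ N.V N.V (@instHSMul ℤ N.V N.hV2.toSMul)
      m (N.ρ g n) := by
    letI : Module ℤ N.V := N.hV2
    exact Representation.freeLift_single_single N.ρ n g m (fun n : N.V => n)
  rw [h2]
  exact int_smul_eq_zsmul N.hV2 m _

/-- Induction principle for `P`. -/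
theorem stdP_induction {motive : (stdP N).V → Prop} (x : (stdP N).V)
    (zero : motive 0) (add : ∀ x y, motive x → motive y → motive (x + y))
    (single : ∀ (n : N.V) (g : G) (m : ℤ), motive (bvec N n g m)) : motive x :=
  H295.free_induction (motive := motive) x zero add single

/-- Two additive maps on `P` which agree on the basis are equal. -/
theorem stdP_addHom_ext {M : Type} [AddCommGroup M] {f f' : (stdP N).V →+ M}
    (h : ∀ (n : N.V) (g : G) (m : ℤ), f (bvec N n g m) = f' (bvec N n g m)) (x : (stdP N).V) :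
    f x = f' x := by
  induction x using stdP_induction with
  | zero => rw [map_zero, map_zero]
  | add x y hx hy => rw [map_add, map_add, hx, hy]
  | single n g m => exact h n g m

/-- Additive maps out of `P` from values on the basis. -/
noncomputable def stdPLift {M : Type} [AddCommGroup M] (v : N.V → G → M) : (stdP N).V →+ M :=
  H295.freeBasisLift v

theorem stdPLift_bvec {M : Type} [AddCommGroup M] (v : N.V → G → M) (n : N.V) (g : G) (m : ℤ) :
    stdPLift N v (bvec N n g m) = m • v n g :=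
  H295.freeBasisLift_single_single v n g m

theorem zsmul_bvec (n : N.V) (g : G) (m : ℤ) : m • bvec N n g 1 = bvec N n g m :=
  H295.zsmul_single_single n g m

/-- `pr : P → P_D`, `g e_n ↦ d_g e_{s_g n}` where `g = φ(d_g) s_g`. -/
noncomputable def cmpPr : (stdP N).V →+ (stdP (Rep.res φ N)).V :=
  stdPLift N (fun n g => bvec (Rep.res φ N) (N.ρ (cosetRep φ g) n) (cosetCoord φ g) 1)

theorem cmpPr_bvec (n : N.V) (g : G) (m : ℤ) :
    cmpPr φ N (bvec N n g m) =
      bvec (Rep.res φ N) (N.ρ (cosetRep φ g) n) (cosetCoord φ g) m := by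
  unfold cmpPr
  rw [stdPLift_bvec, zsmul_bvec]

theorem trP_bvec {G' : Type} [Group G'] (π : G' →* G) {N' : Rep.{0} ℤ G'}
    (ν : N' ⟶ Rep.res π N) (n' : N'.V) (d : G') (m : ℤ) :
    (trP π ν).hom (bvec N' n' d m) = bvec N (ν.hom n') (π d) m := by
  have h1 : (trP π ν).hom (bvec N' n' d m) =
      @HSMul.hSMul ℤ (stdP N).V (stdP N).V (@instHSMul ℤ (stdP N).V (stdP N).hV2.toSMul) m
        ((stdP N).ρ (π d) (stdE N (ν.hom n'))) := by
    letI : Module ℤ (stdP N).V := (stdP N).hV2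
    exact Representation.freeLift_single_single (Rep.res π (stdP N)).ρ n' d m
      (fun n' : N'.V => stdE N (ν.hom n'))
  refine h1.trans ((int_smul_eq_zsmul (stdP N).hV2 m _).trans ?_)
  have h2 : stdE N (ν.hom n') = bvec N (ν.hom n') 1 1 := rfl
  rw [h2, stdP_ρ_bvec, mul_one, zsmul_bvec]

variable {φ} in
theorem cmpPr_equivariant (hφ : Function.Injective φ) (d : D) (x : (stdP N).V) :
    cmpPr φ N ((stdP N).ρ (φ d) x) = (stdP (Rep.res φ N)).ρ d (cmpPr φ N x) := by
  induction x using stdP_induction with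
  | zero => rw [map_zero, map_zero, map_zero]
  | add x y hx hy => rw [map_add, map_add, hx, hy, map_add, map_add]
  | single n g m =>
    rw [stdP_ρ_bvec, cmpPr_bvec, cmpPr_bvec, stdP_ρ_bvec, cosetRep_mul, cosetCoord_mul hφ]

theorem stdε_cmpPr (x : (stdP N).V) :
    (stdε (Rep.res φ N)).hom (cmpPr φ N x) = (stdε N).hom x := by
  induction x using stdP_induction with
  | zero => rw [map_zero, map_zero, map_zero]
  | add x y hx hy => rw [map_add, map_add, hx, hy, map_add]
  | single n g m =>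
    rw [cmpPr_bvec, stdε_bvec, stdε_bvec]
    congr 1
    show N.ρ (φ (cosetCoord φ g)) (N.ρ (cosetRep φ g) n) = N.ρ g n
    have h : N.ρ (φ (cosetCoord φ g) * cosetRep φ g) n = N.ρ g n := by
      rw [cosetCoord_spec]
    rw [← h, map_mul]
    rfl

variable {φ} in
theorem cmpPr_trP (hφ : Function.Injective φ) (y : (stdP (Rep.res φ N)).V) :
    cmpPr φ N ((trP φ (𝟙 (Rep.res φ N))).hom y) = y := by
  induction y using stdP_induction with
  | zero => rw [map_zero, map_zero]
  | add x y hx hy => rw [map_add, map_add, hx, hy]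
  | single n d m =>
    rw [trP_bvec, cmpPr_bvec, cosetRep_range, cosetCoord_range hφ]
    have h1 : (𝟙 (Rep.res φ N) : Rep.res φ N ⟶ Rep.res φ N).hom n = n := rfl
    rw [h1, map_one]
    rfl

end Pr

/-! ## The retraction `r : R|_D → R_D` and the projection `κ : P → R` -/

section Retr

variable {G D : Type} [Group G] [Group D]

/-- Lift an additive map with values in `ker ε` through `stdι`. -/
theorem exists_addHom_lift_stdι {A : Type} [AddCommGroup A] (M : Rep.{0} ℤ G)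
    (f : A →+ (stdP M).V) (hf : ∀ a, (stdε M).hom (f a) = 0) :
    ∃ f' : A →+ (stdR M).V, ∀ a, (stdι M).hom (f' a) = f a := by
  have h : ∀ a, ∃ r : (stdR M).V, (stdι M).hom r = f a := fun a => exists_stdι_eq M (hf a)
  choose ρ hρ using h
  refine ⟨AddMonoidHom.mk' ρ (fun a b => ?_), hρ⟩
  apply stdι_injective M
  rw [map_add, hρ, hρ, hρ, map_add]

variable (φ : D →* G) (N : Rep.{0} ℤ G)

theorem cmpRetr_aux : ∃ f' : (stdR N).V →+ (stdR (Rep.res φ N)).V,
    ∀ b, (stdι (Rep.res φ N)).hom (f' b) = cmpPr φ N ((stdι N).hom b) :=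
  exists_addHom_lift_stdι (Rep.res φ N) ((cmpPr φ N).comp (addHom (stdι N)))
    (fun b => by
      show (stdε (Rep.res φ N)).hom (cmpPr φ N ((stdι N).hom b)) = 0
      rw [stdε_cmpPr, stdε_stdι_apply])

/-- The retraction `r : R|_D → R_D` (additive, `D`-equivariant). -/
noncomputable def cmpRetr : (stdR N).V →+ (stdR (Rep.res φ N)).V :=
  Classical.choose (cmpRetr_aux φ N)

theorem stdι_cmpRetr (b : (stdR N).V) :
    (stdι (Rep.res φ N)).hom (cmpRetr φ N b) = cmpPr φ N ((stdι N).hom b) :=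
  Classical.choose_spec (cmpRetr_aux φ N) b

theorem cmpKap_aux : ∃ f' : (stdP N).V →+ (stdR N).V,
    ∀ x, (stdι N).hom (f' x) = x - (trP φ (𝟙 (Rep.res φ N))).hom (cmpPr φ N x) :=
  exists_addHom_lift_stdι N
    (AddMonoidHom.id _ - (addHom (trP φ (𝟙 (Rep.res φ N)))).comp (cmpPr φ N))
    (fun x => by
      show (stdε N).hom (x - (trP φ (𝟙 (Rep.res φ N))).hom (cmpPr φ N x)) = 0
      rw [map_sub, trP_stdε_apply, stdε_cmpPr, sub_eq_zero]
      rfl)

/-- The projection `κ = 1 - τ_P ∘ pr : P → R` (additive, `D`-equivariant). -/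
noncomputable def cmpKap : (stdP N).V →+ (stdR N).V :=
  Classical.choose (cmpKap_aux φ N)

theorem stdι_cmpKap (x : (stdP N).V) :
    (stdι N).hom (cmpKap φ N x) = x - (trP φ (𝟙 (Rep.res φ N))).hom (cmpPr φ N x) :=
  Classical.choose_spec (cmpKap_aux φ N) x

variable {φ}

theorem cmpRetr_equivariant (hφ : Function.Injective φ) (d : D) (b : (stdR N).V) :
    cmpRetr φ N ((stdR N).ρ (φ d) b) = (stdR (Rep.res φ N)).ρ d (cmpRetr φ N b) := by
  apply stdι_injective (Rep.res φ N)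
  rw [stdι_cmpRetr, Rep.hom_comm_apply, cmpPr_equivariant N hφ, Rep.hom_comm_apply,
    stdι_cmpRetr]

theorem cmpRetr_trR (hφ : Function.Injective φ) (a : (stdR (Rep.res φ N)).V) :
    cmpRetr φ N ((trR φ (𝟙 (Rep.res φ N))).hom a) = a := by
  apply stdι_injective (Rep.res φ N)
  rw [stdι_cmpRetr, trR_stdι_apply, cmpPr_trP N hφ]

theorem trP_equivariant (d : D) (y : (stdP (Rep.res φ N)).V) :
    (trP φ (𝟙 (Rep.res φ N))).hom ((stdP (Rep.res φ N)).ρ d y) =
      (stdP N).ρ (φ d) ((trP φ (𝟙 (Rep.res φ N))).hom y) :=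
  Rep.hom_comm_apply (trP φ (𝟙 (Rep.res φ N))) d y

theorem trR_equivariant (d : D) (a : (stdR (Rep.res φ N)).V) :
    (trR φ (𝟙 (Rep.res φ N))).hom ((stdR (Rep.res φ N)).ρ d a) =
      (stdR N).ρ (φ d) ((trR φ (𝟙 (Rep.res φ N))).hom a) :=
  Rep.hom_comm_apply (trR φ (𝟙 (Rep.res φ N))) d a

theorem cmpKap_equivariant (hφ : Function.Injective φ) (d : D) (x : (stdP N).V) :
    cmpKap φ N ((stdP N).ρ (φ d) x) = (stdR N).ρ (φ d) (cmpKap φ N x) := by
  apply stdι_injective N
  rw [stdι_cmpKap, Rep.hom_comm_apply, stdι_cmpKap, cmpPr_equivariant N hφ, trP_equivariant,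
    map_sub]

theorem cmpKap_stdι (b : (stdR N).V) :
    cmpKap φ N ((stdι N).hom b) = b - (trR φ (𝟙 (Rep.res φ N))).hom (cmpRetr φ N b) := by
  apply stdι_injective N
  rw [stdι_cmpKap, map_sub, trR_stdι_apply, stdι_cmpRetr]

end Retr

/-! ## The cocycle computation -/

section Cocycle

variable {G D : Type} [Group G] [Group D] {φ : D →* G} (N : Rep.{0} ℤ G) (X : Rep.{0} ℤ D)

/-- `Hom_ℤ(R|_D, X)`. -/
noncomputable abbrev cmpHB (φ : D →* G) (N : Rep.{0} ℤ G) (X : Rep.{0} ℤ D) : Rep.{0} ℤ D :=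
  (Rep.ihom (Rep.res φ (stdR N))).obj X

/-- `Hom_ℤ(R_D, X)`. -/
noncomputable abbrev cmpHA (φ : D →* G) (N : Rep.{0} ℤ G) (X : Rep.{0} ℤ D) : Rep.{0} ℤ D :=
  (Rep.ihom (stdR (Rep.res φ N))).obj X

/-- The pull-back `Hom_ℤ(R|_D, X) ⟶ Hom_ℤ(R_D, X)` along `trR φ 𝟙`. -/
noncomputable abbrev cmpPre (φ : D →* G) (N : Rep.{0} ℤ G) (X : Rep.{0} ℤ D) : cmpHB φ N X ⟶ cmpHA φ N X :=
  ihomPre (trR φ (𝟙 (Rep.res φ N))) X

theorem cmpHB_ρ_apply (d : D) (f : (cmpHB φ N X).V) (b : (stdR N).V) :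
    ihomLin ((cmpHB φ N X).ρ d f) b = X.ρ d (ihomLin f ((stdR N).ρ (φ d⁻¹) b)) := rfl

theorem cmpHA_ρ_apply (d : D) (f : (cmpHA φ N X).V) (a : (stdR (Rep.res φ N)).V) :
    ihomLin ((cmpHA φ N X).ρ d f) a =
      X.ρ d (ihomLin f ((stdR (Rep.res φ N)).ρ d⁻¹ a)) := rfl

theorem cmpPre_apply (f : (cmpHB φ N X).V) (a : (stdR (Rep.res φ N)).V) :
    ihomLin ((cmpPre φ N X).hom f) a = ihomLin f ((trR φ (𝟙 (Rep.res φ N))).hom a) := rfl

/-- The primitive `θ₀ : P → X` of a cocycle vanishing on `R_D`. -/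
noncomputable def cmpTheta (c : D → (cmpHB φ N X).V) : (stdP N).V →+ X.V :=
  stdPLift N (fun n g => - ihomLin (c (cosetCoord φ g)) (cmpKap φ N (bvec N n g 1)))

theorem cmpTheta_bvec (c : D → (cmpHB φ N X).V) (n : N.V) (g : G) (m : ℤ) :
    cmpTheta N X c (bvec N n g m) =
      m • (- ihomLin (c (cosetCoord φ g)) (cmpKap φ N (bvec N n g 1))) :=
  stdPLift_bvec N _ n g m

/-- The key identity. -/
theorem cmp_key (hφ : Function.Injective φ) (c : D → (cmpHB φ N X).V)
    (hc : ∀ d₁ d₂ : D, c (d₁ * d₂) = (cmpHB φ N X).ρ d₁ (c d₂) + c d₁) (d : D)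
    (x : (stdP N).V) :
    ihomLin (c d) (cmpKap φ N x) =
      X.ρ d (cmpTheta N X c ((stdP N).ρ (φ d⁻¹) x)) - cmpTheta N X c x := by
  induction x using stdP_induction with
  | zero => simp only [map_zero, sub_zero]
  | add x y hx hy =>
    simp only [map_add, hx, hy]
    abel
  | single n g m =>
    have hk : cmpKap φ N (bvec N n (φ d⁻¹ * g) 1) =
        (stdR N).ρ (φ d⁻¹) (cmpKap φ N (bvec N n g 1)) := by
      rw [← cmpKap_equivariant N hφ, stdP_ρ_bvec]
    have hcoc : c (cosetCoord φ g) =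
        (cmpHB φ N X).ρ d (c (d⁻¹ * cosetCoord φ g)) + c d := by
      rw [← hc, mul_inv_cancel_left]
    have h1 : ihomLin (c (cosetCoord φ g)) (cmpKap φ N (bvec N n g 1)) =
        X.ρ d (ihomLin (c (d⁻¹ * cosetCoord φ g))
          ((stdR N).ρ (φ d⁻¹) (cmpKap φ N (bvec N n g 1)))) +
        ihomLin (c d) (cmpKap φ N (bvec N n g 1)) := by
      conv_lhs => rw [hcoc]
      rfl
    rw [stdP_ρ_bvec, cmpTheta_bvec, cmpTheta_bvec, cosetCoord_mul hφ, hk, ← zsmul_bvec,
      map_zsmul, map_zsmul, map_zsmul, ← smul_sub, map_neg, h1]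
    congr 1
    abel

/-- **Vanishing case**: a cocycle `D → Hom_ℤ(R|_D, X)` whose values vanish on `R_D` is a
coboundary. -/
theorem cmp_coboundary_of_vanish (hφ : Function.Injective φ) (c : D → (cmpHB φ N X).V)
    (hc : ∀ d₁ d₂ : D, c (d₁ * d₂) = (cmpHB φ N X).ρ d₁ (c d₂) + c d₁)
    (hv : ∀ (d : D) (a : (stdR (Rep.res φ N)).V),
      ihomLin (c d) ((trR φ (𝟙 (Rep.res φ N))).hom a) = 0) :
    ∃ θ : (cmpHB φ N X).V, ∀ d : D, (cmpHB φ N X).ρ d θ - θ = c d := by
  let θ : (cmpHB φ N X).V :=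
    ihomOfAdd (A := Rep.res φ (stdR N)) ((cmpTheta N X c).comp (addHom (stdι N)))
  have hθ : ∀ b : (stdR N).V, ihomLin θ b = cmpTheta N X c ((stdι N).hom b) := fun b => rfl
  refine ⟨θ, fun d => ?_⟩
  show ihomLin ((cmpHB φ N X).ρ d θ - θ) = ihomLin (c d)
  refine DFunLike.ext _ _ fun b => ?_
  have h1 : ihomLin ((cmpHB φ N X).ρ d θ - θ) b =
      X.ρ d (ihomLin θ ((stdR N).ρ (φ d⁻¹) b)) - ihomLin θ b := rfl
  rw [h1, hθ, hθ, Rep.hom_comm_apply, ← cmp_key N X hφ c hc d, cmpKap_stdι, map_sub, hv,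
    sub_zero]

end Cocycle

/-! ## The comparison theorem -/

section Main

variable {G D : Type} [Group G] [Group D] {φ : D →* G} (N : Rep.{0} ℤ G) (X : Rep.{0} ℤ D)

/-- **CMP, injectivity.** -/
theorem cmp_injective (hφ : Function.Injective φ) :
    Function.Injective (T.coeffMap (cmpPre φ N X) 1).hom := by
  rw [injective_iff_map_eq_zero]
  intro y hy
  induction y using groupCohomology.H1_induction_on with
  | h c =>
    erw [groupCohomology.H1π_comp_map_apply] at hy
    rw [groupCohomology.H1π_eq_zero_iff] at hy ⊢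
    obtain ⟨ψ, hψ⟩ := hy
    have hψ' : ∀ d : D, (cmpHA φ N X).ρ d ψ - ψ = (cmpPre φ N X).hom (c d) :=
      fun d => congrFun hψ d
    have hcoc : ∀ d₁ d₂ : D, c (d₁ * d₂) = (cmpHB φ N X).ρ d₁ (c d₂) + c d₁ :=
      (groupCohomology.mem_cocycles₁_iff c.1).1 c.2
    let Ψ : (cmpHB φ N X).V :=
      ihomOfAdd (A := Rep.res φ (stdR N)) ((ihomAdd ψ).comp (cmpRetr φ N))
    have hΨ : ∀ b : (stdR N).V, ihomLin Ψ b = ihomLin ψ (cmpRetr φ N b) := fun b => rfl
    let c' : D → (cmpHB φ N X).V := fun d => c d - ((cmpHB φ N X).ρ d Ψ - Ψ)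
    have hc' : ∀ d₁ d₂ : D, c' (d₁ * d₂) = (cmpHB φ N X).ρ d₁ (c' d₂) + c' d₁ := by
      intro d₁ d₂
      have hmul : (cmpHB φ N X).ρ (d₁ * d₂) Ψ = (cmpHB φ N X).ρ d₁ ((cmpHB φ N X).ρ d₂ Ψ) := by
        rw [map_mul]
        rfl
      show c (d₁ * d₂) - ((cmpHB φ N X).ρ (d₁ * d₂) Ψ - Ψ) =
        (cmpHB φ N X).ρ d₁ (c d₂ - ((cmpHB φ N X).ρ d₂ Ψ - Ψ)) +
          (c d₁ - ((cmpHB φ N X).ρ d₁ Ψ - Ψ))
      rw [hcoc, hmul, map_sub, map_sub]
      abel
    have hv : ∀ (d : D) (a : (stdR (Rep.res φ N)).V),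
        ihomLin (c' d) ((trR φ (𝟙 (Rep.res φ N))).hom a) = 0 := by
      intro d a
      have h1 : ihomLin (c' d) ((trR φ (𝟙 (Rep.res φ N))).hom a) =
          ihomLin (c d) ((trR φ (𝟙 (Rep.res φ N))).hom a) -
            (X.ρ d (ihomLin Ψ ((stdR N).ρ (φ d⁻¹) ((trR φ (𝟙 (Rep.res φ N))).hom a))) -
              ihomLin Ψ ((trR φ (𝟙 (Rep.res φ N))).hom a)) := rfl
      have h2 : ihomLin (c d) ((trR φ (𝟙 (Rep.res φ N))).hom a) =
          X.ρ d (ihomLin ψ ((stdR (Rep.res φ N)).ρ d⁻¹ a)) - ihomLin ψ a := by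
        have := congrArg (fun f : (cmpHA φ N X).V => ihomLin f a) (hψ' d)
        exact this.symm
      rw [h1, h2, hΨ, hΨ, ← trR_equivariant, cmpRetr_trR N hφ, cmpRetr_trR N hφ, sub_self]
    obtain ⟨θ, hθ⟩ := cmp_coboundary_of_vanish N X hφ c' hc' hv
    refine ⟨Ψ + θ, ?_⟩
    funext d
    show (cmpHB φ N X).ρ d (Ψ + θ) - (Ψ + θ) = c d
    have h3 : c d = c' d + ((cmpHB φ N X).ρ d Ψ - Ψ) := by
      show c d = c d - ((cmpHB φ N X).ρ d Ψ - Ψ) + ((cmpHB φ N X).ρ d Ψ - Ψ)
      abel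
    rw [h3, ← hθ d, map_add]
    abel

/-- **CMP, surjectivity.** -/
theorem cmp_surjective (hφ : Function.Injective φ) :
    Function.Surjective (T.coeffMap (cmpPre φ N X) 1).hom := by
  intro y
  induction y using groupCohomology.H1_induction_on with
  | h cA =>
    have hcoc : ∀ d₁ d₂ : D, cA (d₁ * d₂) = (cmpHA φ N X).ρ d₁ (cA d₂) + cA d₁ :=
      (groupCohomology.mem_cocycles₁_iff cA.1).1 cA.2
    let cB : D → (cmpHB φ N X).V := fun d =>
      ihomOfAdd (A := Rep.res φ (stdR N)) ((ihomAdd (cA d)).comp (cmpRetr φ N))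
    have hcB0 : ∀ (d : D) (b : (stdR N).V), ihomLin (cB d) b = ihomLin (cA d) (cmpRetr φ N b) :=
      fun d b => rfl
    have hcB : cB ∈ groupCohomology.cocycles₁ (cmpHB φ N X) := by
      rw [groupCohomology.mem_cocycles₁_iff]
      intro d₁ d₂
      show ihomLin (cB (d₁ * d₂)) = ihomLin ((cmpHB φ N X).ρ d₁ (cB d₂) + cB d₁)
      refine DFunLike.ext _ _ fun b => ?_
      have h1 : ihomLin ((cmpHB φ N X).ρ d₁ (cB d₂) + cB d₁) b =
          X.ρ d₁ (ihomLin (cB d₂) ((stdR N).ρ (φ d₁⁻¹) b)) + ihomLin (cB d₁) b := rfl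
      have h2 : ihomLin (cA (d₁ * d₂)) (cmpRetr φ N b) =
          X.ρ d₁ (ihomLin (cA d₂) ((stdR (Rep.res φ N)).ρ d₁⁻¹ (cmpRetr φ N b))) +
            ihomLin (cA d₁) (cmpRetr φ N b) := by
        rw [hcoc]
        rfl
      rw [h1, hcB0, hcB0, hcB0, h2, cmpRetr_equivariant N hφ]
    refine ⟨groupCohomology.H1π _ ⟨cB, hcB⟩, ?_⟩
    erw [groupCohomology.H1π_comp_map_apply]
    congr 1
    apply Subtype.ext
    funext d
    show ihomLin ((cmpPre φ N X).hom (cB d)) = ihomLin (cA d)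
    refine DFunLike.ext _ _ fun a => ?_
    rw [cmpPre_apply, hcB0, cmpRetr_trR N hφ]

/-- **CMP (comparison of presentations).**  For `φ : D →* G` injective the pull-back along
`trR φ 𝟙 : R_D → R|_D` induces a bijection
`H¹(D, Hom_ℤ(R|_D, X)) → H¹(D, Hom_ℤ(R_D, X)) = 𝔈²_D(N|_D, X)`. -/
theorem cmp_bijective (hφ : Function.Injective φ) :
    Function.Bijective (T.coeffMap (cmpPre φ N X) 1).hom :=
  ⟨cmp_injective N X hφ, cmp_surjective N X hφ⟩

end Main

/-! ## Consequences for `trE2` along an injective `φ` -/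

section Consequences

variable {G D : Type} [Group G] [Group D] {φ : D →* G} (N : Rep.{0} ℤ G)
variable {Y : Rep.{0} ℤ G} {X : Rep.{0} ℤ D}

/-- `trE2 φ 𝟙 ι` is the composite of `map φ (trIhom φ 𝟙 ι)` (restricted presentation) with the
comparison map. -/
theorem trE2_eq_cmp (ι : Rep.res φ Y ⟶ X) (y : E2 N Y) :
    trE2 φ (𝟙 (Rep.res φ N)) ι y =
      (T.coeffMap (cmpPre φ N X) 1).hom
        ((groupCohomology.map φ (trIhom φ (𝟙 (Rep.res φ (stdR N))) ι) 1).hom y) := by
  induction y using groupCohomology.H1_induction_on with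
  | h c =>
    unfold trE2
    erw [groupCohomology.H1π_comp_map_apply, groupCohomology.H1π_comp_map_apply,
      groupCohomology.H1π_comp_map_apply]
    rfl

/-- For `φ` injective: `trE2 φ 𝟙 ι y = 0` iff the image of `y` in `H¹(D, Hom_ℤ(R|_D, X))`
(restricted presentation) vanishes. -/
theorem trE2_eq_zero_iff (hφ : Function.Injective φ) (ι : Rep.res φ Y ⟶ X) (y : E2 N Y) :
    trE2 φ (𝟙 (Rep.res φ N)) ι y = 0 ↔
      (groupCohomology.map φ (trIhom φ (𝟙 (Rep.res φ (stdR N))) ι) 1).hom y = 0 := by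
  rw [trE2_eq_cmp]
  constructor
  · intro h
    exact cmp_injective N X hφ (h.trans (map_zero _).symm)
  · intro h
    rw [h, map_zero]

/-- **E2-Shapiro in terms of `trE2`.**  For `φ : D →* G` injective and `u : Y ⟶ Coind_φ X`:
`y ∈ 𝔈²_G(N, Y)` dies in `𝔈²_G(N, Coind_φ X)` iff `tr y = 0` in `𝔈²_D(N|_D, X)`, where
`tr = trE2 φ 𝟙 (flat φ u)` is the transition map along `φ` for the standard presentations. -/
theorem E2_dies_iff_trE2 (hφ : Function.Injective φ) (u : Y ⟶ Rep.coind φ X) (y : E2 N Y) :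
    (T.coeffMap ((Rep.ihom (stdR N)).map u) 1).hom y = 0 ↔
      trE2 φ (𝟙 (Rep.res φ N)) (flat φ u) y = 0 := by
  rw [H354.E2_coeffMap_eq_zero_iff hφ N u y, trE2_eq_zero_iff N hφ]

end Consequences

end Fermat.Agent.S55.E1.H423
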