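import Mathlib

/-!
# S55, engine E1, leaf LIM0: directed colimits of modules (abstract part)

A cocone `c i : G i →ₗ[R] X` over a directed system `(G, f)` is a *directed colimit*
(`IsDirColimit f c`) if it is compatible with the transition maps, jointly surjective, and an
element dying in `X` already dies at a finite stage.  Mathlib's `Module.DirectLimit` is one
(`isDirColimit_directLimit`), but the colimits of the Prelude (level-constant cochains) are not
literally of that form, so everything is stated for cocones.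

* `IsDirColimit.desc`, `desc_apply`, `desc_unique` : the universal property;
* `IsDirColimit.bijective_of_eventually` (**LIM0a**): a morphism of directed systems which is
  eventually injective and eventually surjective induces a bijection of colimits;
* `IsDirColimit.bijective_cocone_of_injective`, `IsDirColimit.natCard_eq` (**LIM0b**): a directed
  system of finite groups of constant cardinality `s` with injective transition maps has a colimit
  of cardinality `s`, and every `c i` is bijective;
* `IsDirColimit.natCard_eq_of_eventually` : same, hypotheses only for `i ≥ i₀`.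
-/

set_option autoImplicit false

namespace Fermat.Agent.S55.E1.H423

section Defs

variable {R : Type*} [Ring R] {ι : Type*} [Preorder ι]
variable {G : ι → Type*} [∀ i, AddCommGroup (G i)] [∀ i, Module R (G i)]
variable (f : ∀ i j, i ≤ j → G i →ₗ[R] G j)

/-- The cocone `c` is a directed colimit of the system `(G, f)`. -/
structure IsDirColimit {X : Type*} [AddCommGroup X] [Module R X] (c : ∀ i, G i →ₗ[R] X) :
    Prop where
  /-- compatibility with the transition maps -/
  compat : ∀ i j (h : i ≤ j) (x : G i), c j (f i j h x) = c i x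
  /-- joint surjectivity -/
  exists_rep : ∀ x : X, ∃ i, ∃ y : G i, c i y = x
  /-- an element dying in the colimit dies at a finite stage -/
  zero_exact : ∀ i (y : G i), c i y = 0 → ∃ j, ∃ h : i ≤ j, f i j h y = 0

/-- Mathlib's `Module.DirectLimit` is a directed colimit. -/
theorem isDirColimit_directLimit [DecidableEq ι] [Nonempty ι] [IsDirectedOrder ι]
    [DirectedSystem G (f · · ·)] :
    IsDirColimit f (Module.DirectLimit.of R ι G f) where
  compat _ _ _ _ := Module.DirectLimit.of_f
  exists_rep x := Module.DirectLimit.exists_of x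
  zero_exact _ _ h := Module.DirectLimit.of.zero_exact h

end Defs

namespace IsDirColimit

variable {R : Type*} [Ring R] {ι : Type*} [Preorder ι] [IsDirectedOrder ι]
variable {G : ι → Type*} [∀ i, AddCommGroup (G i)] [∀ i, Module R (G i)]
variable {f : ∀ i j, i ≤ j → G i →ₗ[R] G j}
variable {X : Type*} [AddCommGroup X] [Module R X] {c : ∀ i, G i →ₗ[R] X}

/-- Two representatives of the same element become equal at a later stage (nested form: no
functoriality of `f` is assumed). -/
theorem exists_eq_of_eq (hc : IsDirColimit f c) {i j : ι} {y : G i} {y' : G j}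
    (h : c i y = c j y') :
    ∃ k l, ∃ (hik : i ≤ k) (hjk : j ≤ k) (hkl : k ≤ l),
      f k l hkl (f i k hik y) = f k l hkl (f j k hjk y') := by
  obtain ⟨k, hik, hjk⟩ := exists_ge_ge i j
  have h0 : c k (f i k hik y - f j k hjk y') = 0 := by
    rw [map_sub, hc.compat, hc.compat, h, sub_self]
  obtain ⟨l, hkl, hl⟩ := hc.zero_exact k _ h0
  rw [map_sub, sub_eq_zero] at hl
  exact ⟨k, l, hik, hjk, hkl, hl⟩

section Desc

variable {Y : Type*} [AddCommGroup Y] [Module R Y] (g : ∀ i, G i →ₗ[R] Y)

/-- A compatible family takes the same value on two representatives of the same element. -/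
theorem family_eq_of_eq (hc : IsDirColimit f c)
    (hg : ∀ i j (h : i ≤ j) (x : G i), g j (f i j h x) = g i x)
    {i j : ι} {y : G i} {y' : G j} (h : c i y = c j y') : g i y = g j y' := by
  obtain ⟨k, l, hik, hjk, hkl, hl⟩ := hc.exists_eq_of_eq h
  rw [← hg i k hik y, ← hg k l hkl, hl, hg k l hkl, hg j k hjk]

/-- The map out of a directed colimit induced by a compatible family. -/
noncomputable def desc (hc : IsDirColimit f c)
    (hg : ∀ i j (h : i ≤ j) (x : G i), g j (f i j h x) = g i x) : X →ₗ[R] Y where
  toFun x := g (hc.exists_rep x).choose (hc.exists_rep x).choose_spec.choose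
  map_add' x x' := by
    obtain ⟨k, hik, hjk⟩ := exists_ge_ge (hc.exists_rep x).choose (hc.exists_rep x').choose
    have h1 := (hc.exists_rep x).choose_spec.choose_spec
    have h2 := (hc.exists_rep x').choose_spec.choose_spec
    have h3 := (hc.exists_rep (x + x')).choose_spec.choose_spec
    have h4 : c (hc.exists_rep (x + x')).choose (hc.exists_rep (x + x')).choose_spec.choose =
        c k (f _ k hik (hc.exists_rep x).choose_spec.choose +
          f _ k hjk (hc.exists_rep x').choose_spec.choose) := by
      rw [map_add, hc.compat, hc.compat, h1, h2, h3]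
    rw [hc.family_eq_of_eq g hg h4, map_add, hg, hg]
  map_smul' r x := by
    have h1 := (hc.exists_rep x).choose_spec.choose_spec
    have h3 := (hc.exists_rep (r • x)).choose_spec.choose_spec
    have h4 : c (hc.exists_rep (r • x)).choose (hc.exists_rep (r • x)).choose_spec.choose =
        c (hc.exists_rep x).choose (r • (hc.exists_rep x).choose_spec.choose) := by
      rw [map_smul, h1, h3]
    rw [hc.family_eq_of_eq g hg h4, map_smul, RingHom.id_apply]

@[simp]
theorem desc_apply (hc : IsDirColimit f c)
    (hg : ∀ i j (h : i ≤ j) (x : G i), g j (f i j h x) = g i x) (i : ι) (y : G i) :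
    hc.desc g hg (c i y) = g i y :=
  hc.family_eq_of_eq g hg (hc.exists_rep (c i y)).choose_spec.choose_spec

omit [IsDirectedOrder ι] in
/-- Uniqueness in the universal property. -/
theorem hom_ext (hc : IsDirColimit f c) {Φ Ψ : X →ₗ[R] Y}
    (h : ∀ i (y : G i), Φ (c i y) = Ψ (c i y)) : Φ = Ψ := by
  ext x
  obtain ⟨i, y, rfl⟩ := hc.exists_rep x
  exact h i y

theorem desc_unique (hc : IsDirColimit f c)
    (hg : ∀ i j (h : i ≤ j) (x : G i), g j (f i j h x) = g i x) (Φ : X →ₗ[R] Y)
    (hΦ : ∀ i (y : G i), Φ (c i y) = g i y) : Φ = hc.desc g hg :=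
  hc.hom_ext fun i y => by rw [hΦ, desc_apply]

end Desc

section Morphism

variable {G' : ι → Type*} [∀ i, AddCommGroup (G' i)] [∀ i, Module R (G' i)]
variable {f' : ∀ i j, i ≤ j → G' i →ₗ[R] G' j}
variable {X' : Type*} [AddCommGroup X'] [Module R X'] {c' : ∀ i, G' i →ₗ[R] X'}

/-- The map of colimits induced by a morphism of directed systems. -/
noncomputable def map (hc : IsDirColimit f c) (hc' : IsDirColimit f' c')
    (φ : ∀ i, G i →ₗ[R] G' i)
    (hφ : ∀ i j (h : i ≤ j) (x : G i), φ j (f i j h x) = f' i j h (φ i x)) : X →ₗ[R] X' :=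
  hc.desc (fun i => c' i ∘ₗ φ i) fun i j h x => by
    simp only [LinearMap.comp_apply]
    rw [hφ, hc'.compat]

@[simp]
theorem map_apply (hc : IsDirColimit f c) (hc' : IsDirColimit f' c')
    (φ : ∀ i, G i →ₗ[R] G' i)
    (hφ : ∀ i j (h : i ≤ j) (x : G i), φ j (f i j h x) = f' i j h (φ i x)) (i : ι) (y : G i) :
    hc.map hc' φ hφ (c i y) = c' i (φ i y) := by
  rw [map, desc_apply]
  rfl

omit [IsDirectedOrder ι] in
/-- **LIM0a, injectivity.**  A morphism of directed systems which is eventually injective
induces an injection of colimits. -/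
theorem injective_of_eventually (hc : IsDirColimit f c) (hc' : IsDirColimit f' c')
    (φ : ∀ i, G i →ₗ[R] G' i)
    (hφ : ∀ i j (h : i ≤ j) (x : G i), φ j (f i j h x) = f' i j h (φ i x))
    (Φ : X →ₗ[R] X') (hΦ : ∀ i (y : G i), Φ (c i y) = c' i (φ i y))
    (hinj : ∀ i (x : G i), φ i x = 0 → ∃ j, ∃ h : i ≤ j, f i j h x = 0) :
    Function.Injective Φ := by
  rw [injective_iff_map_eq_zero]
  intro z hz
  obtain ⟨i, x, rfl⟩ := hc.exists_rep z
  rw [hΦ] at hz
  obtain ⟨j, hij, hj⟩ := hc'.zero_exact i _ hz
  rw [← hφ] at hj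
  obtain ⟨k, hjk, hk⟩ := hinj j _ hj
  rw [← hc.compat i j hij, ← hc.compat j k hjk, hk, map_zero]

omit [IsDirectedOrder ι] in
/-- **LIM0a, surjectivity.**  A morphism of directed systems which is eventually surjective
induces a surjection of colimits. -/
theorem surjective_of_eventually (hc' : IsDirColimit f' c')
    (φ : ∀ i, G i →ₗ[R] G' i)
    (Φ : X →ₗ[R] X') (hΦ : ∀ i (y : G i), Φ (c i y) = c' i (φ i y))
    (hsurj : ∀ i (y : G' i), ∃ j, ∃ h : i ≤ j, ∃ x : G j, φ j x = f' i j h y) :
    Function.Surjective Φ := by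
  intro w
  obtain ⟨i, y, rfl⟩ := hc'.exists_rep w
  obtain ⟨j, hij, x, hx⟩ := hsurj i y
  exact ⟨c j x, by rw [hΦ, hx, hc'.compat]⟩

omit [IsDirectedOrder ι] in
/-- **LIM0a.**  A morphism of directed systems which is eventually injective and eventually
surjective induces a bijection of colimits. -/
theorem bijective_of_eventually (hc : IsDirColimit f c) (hc' : IsDirColimit f' c')
    (φ : ∀ i, G i →ₗ[R] G' i)
    (hφ : ∀ i j (h : i ≤ j) (x : G i), φ j (f i j h x) = f' i j h (φ i x))
    (Φ : X →ₗ[R] X') (hΦ : ∀ i (y : G i), Φ (c i y) = c' i (φ i y))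
    (hinj : ∀ i (x : G i), φ i x = 0 → ∃ j, ∃ h : i ≤ j, f i j h x = 0)
    (hsurj : ∀ i (y : G' i), ∃ j, ∃ h : i ≤ j, ∃ x : G j, φ j x = f' i j h y) :
    Function.Bijective Φ :=
  ⟨hc.injective_of_eventually hc' φ hφ Φ hΦ hinj, surjective_of_eventually hc' φ Φ hΦ hsurj⟩

/-- **LIM0a** for the induced map `IsDirColimit.map`. -/
theorem bijective_map_of_eventually (hc : IsDirColimit f c) (hc' : IsDirColimit f' c')
    (φ : ∀ i, G i →ₗ[R] G' i)
    (hφ : ∀ i j (h : i ≤ j) (x : G i), φ j (f i j h x) = f' i j h (φ i x))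
    (hinj : ∀ i (x : G i), φ i x = 0 → ∃ j, ∃ h : i ≤ j, f i j h x = 0)
    (hsurj : ∀ i (y : G' i), ∃ j, ∃ h : i ≤ j, ∃ x : G j, φ j x = f' i j h y) :
    Function.Bijective (hc.map hc' φ hφ) :=
  hc.bijective_of_eventually hc' φ hφ _ (fun i y => map_apply hc hc' φ hφ i y) hinj hsurj

/-- Cardinalities of two colimits related by an eventually bijective morphism agree. -/
theorem natCard_eq_of_eventually_bijective (hc : IsDirColimit f c) (hc' : IsDirColimit f' c')
    (φ : ∀ i, G i →ₗ[R] G' i)
    (hφ : ∀ i j (h : i ≤ j) (x : G i), φ j (f i j h x) = f' i j h (φ i x))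
    (hinj : ∀ i (x : G i), φ i x = 0 → ∃ j, ∃ h : i ≤ j, f i j h x = 0)
    (hsurj : ∀ i (y : G' i), ∃ j, ∃ h : i ≤ j, ∃ x : G j, φ j x = f' i j h y) :
    Nat.card X = Nat.card X' :=
  Nat.card_eq_of_bijective _ (hc.bijective_map_of_eventually hc' φ hφ hinj hsurj)

end Morphism

section Constant

omit [IsDirectedOrder ι] in
/-- If the transition maps out of `i₀` are injective then `c i₀` is injective. -/
theorem injective_cocone (hc : IsDirColimit f c) (i₀ : ι)
    (hinj : ∀ j (h : i₀ ≤ j), Function.Injective (f i₀ j h)) : Function.Injective (c i₀) := by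
  rw [injective_iff_map_eq_zero]
  intro x hx
  obtain ⟨j, hj, h0⟩ := hc.zero_exact i₀ x hx
  exact (injective_iff_map_eq_zero _).mp (hinj j hj) x h0

/-- If the transition maps `f i₀ j` are surjective for all `j ≥ i₀` then `c i₀` is
surjective. -/
theorem surjective_cocone (hc : IsDirColimit f c) (i₀ : ι)
    (hsurj : ∀ j (h : i₀ ≤ j), Function.Surjective (f i₀ j h)) : Function.Surjective (c i₀) := by
  intro z
  obtain ⟨j, y, rfl⟩ := hc.exists_rep z
  obtain ⟨k, hik, hjk⟩ := exists_ge_ge i₀ j
  obtain ⟨x, hx⟩ := hsurj k hik (f j k hjk y)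
  exact ⟨x, by rw [← hc.compat i₀ k hik, hx, hc.compat]⟩

/-- **LIM0b.**  In a directed system of finite groups of constant cardinality (from `i₀` on)
with injective transition maps (from `i₀` on), `c i₀` is bijective. -/
theorem bijective_cocone_of_injective (hc : IsDirColimit f c) (i₀ : ι)
    (hfin : Finite (G i₀)) (hcard : ∀ j, i₀ ≤ j → Nat.card (G j) = Nat.card (G i₀))
    (hinj : ∀ j (h : i₀ ≤ j), Function.Injective (f i₀ j h)) : Function.Bijective (c i₀) := by
  refine ⟨hc.injective_cocone i₀ hinj, hc.surjective_cocone i₀ fun j hj => ?_⟩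
  have hfinj : Finite (G j) := by
    apply Nat.finite_of_card_ne_zero
    rw [hcard j hj]
    exact Nat.card_pos.ne'
  exact ((Nat.bijective_iff_injective_and_card _).mpr ⟨hinj j hj, (hcard j hj).symm⟩).2

/-- **LIM0b.**  A directed system of finite groups of constant cardinality `s` with injective
transition maps (both from `i₀` on) has a colimit of cardinality `s`. -/
theorem natCard_eq_of_eventually (hc : IsDirColimit f c) (i₀ : ι) (s : ℕ)
    (hfin : ∀ j, i₀ ≤ j → Finite (G j)) (hcard : ∀ j, i₀ ≤ j → Nat.card (G j) = s)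
    (hinj : ∀ j (h : i₀ ≤ j), Function.Injective (f i₀ j h)) : Nat.card X = s := by
  rw [← hcard i₀ le_rfl]
  exact (Nat.card_eq_of_bijective _ (hc.bijective_cocone_of_injective i₀ (hfin i₀ le_rfl)
    (fun j hj => by rw [hcard j hj, hcard i₀ le_rfl]) hinj)).symm

/-- **LIM0b**, global form. -/
theorem natCard_eq [Nonempty ι] (hc : IsDirColimit f c) (s : ℕ)
    (hfin : ∀ j, Finite (G j)) (hcard : ∀ j, Nat.card (G j) = s)
    (hinj : ∀ i j (h : i ≤ j), Function.Injective (f i j h)) : Nat.card X = s :=
  hc.natCard_eq_of_eventually (Classical.arbitrary ι) s (fun j _ => hfin j) (fun j _ => hcard j)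
    (fun j h => hinj _ j h)

/-- The colimit of a directed system of finite groups of constant cardinality with injective
transition maps is finite. -/
theorem finite_of_eventually (hc : IsDirColimit f c) (i₀ : ι)
    (hfin : Finite (G i₀)) (hcard : ∀ j, i₀ ≤ j → Nat.card (G j) = Nat.card (G i₀))
    (hinj : ∀ j (h : i₀ ≤ j), Function.Injective (f i₀ j h)) : Finite X :=
  Finite.of_surjective _ (hc.bijective_cocone_of_injective i₀ hfin hcard hinj).2

end Constant

end IsDirColimit

end Fermat.Agent.S55.E1.H423
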