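/-
S55 engine E1 — block LIM, leaf **LIM4** (helper423): the producer `lim4 : Lim.LIM4Spec`.

Glue of helper603's `E1/H603/FinLevelH1.lean` (`sha1Fin`, `shaInfl`,
`exists_level_forall_card_sha1Fin_eq`, over `ZMod p`) with the engine's finite-level
`Ш¹_F = shaFin (decS L) (cf N L)` (over `ℤ`), through `H603.H1IntEquiv`.
Finiteness of `sha₁ S N` comes from GD10 (`H1FiniteSpec`).  All proofs complete.
-/
import Fermat.Agent.S55.E1.SpecLim
import Fermat.Agent.S55.E1.H603.FinLevelH1

set_option autoImplicit false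

open CategoryTheory CategoryTheory.Limits groupCohomology ExtCitation

namespace Fermat.Agent.S55.E1.H423

open Fermat.Agent.S55.Tow Fermat.Agent.S55.E1 Fermat.Agent.S55.E1.Lim

noncomputable section

variable {S : Finset Nat.Primes} {K : Type} [Field K] (A : Rep.{0, 0, 0} K GQ)

/-- Restriction to a decomposition group commutes with the change of coefficient ring. -/
theorem H1IntEquiv_resAlong (L : Level S) (q : Nat.Primes) (x : groupCohomology (cf A L) 1) :
    H603.H1IntEquiv (Rep.res (L.decHom q) (H603.coeff A L))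
        (resAlong (L.decHom q) (cf A L) 1 x) =
      H603.resDec₁ A L q (H603.H1IntEquiv (H603.coeff A L) x) :=
  H603.H1IntEquiv_map (A := H603.coeff A L) (B := Rep.res (L.decHom q) (H603.coeff A L))
    (L.decHom q) (𝟙 (Rep.res (L.decHom q) (H603.coeff A L))) x

/-- The engine's `Ш¹_F` (over `ℤ`) is helper603's `sha1Fin` (over `K`). -/
theorem mem_shaFin_iff (L : Level S) (x : groupCohomology (cf A L) 1) :
    x ∈ shaFin (decS L) (cf A L) ↔ H603.H1IntEquiv (H603.coeff A L) x ∈ H603.sha1Fin A L := by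
  rw [H603.sha1Fin, Submodule.mem_iInf]
  refine forall_congr' fun q => ?_
  rw [LinearMap.mem_ker, ← H1IntEquiv_resAlong A L q.1 x]
  exact (AddEquiv.map_eq_zero_iff _).symm

/-- The engine's `Ш¹_F` is in bijection with helper603's. -/
def shaFinEquiv (L : Level S) : shaFin (decS L) (cf A L) ≃ H603.sha1Fin A L where
  toFun x := ⟨H603.H1IntEquiv (H603.coeff A L) x.1, (mem_shaFin_iff A L x.1).1 x.2⟩
  invFun y := ⟨(H603.H1IntEquiv (H603.coeff A L)).symm y.1,
    (mem_shaFin_iff A L _).2 (by rw [AddEquiv.apply_symm_apply]; exact y.2)⟩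
  left_inv x := Subtype.ext ((H603.H1IntEquiv (H603.coeff A L)).symm_apply_apply x.1)
  right_inv y := Subtype.ext ((H603.H1IntEquiv (H603.coeff A L)).apply_symm_apply y.1)

theorem card_shaFin_eq (L : Level S) :
    Nat.card (shaFin (decS L) (cf A L)) = Nat.card (H603.sha1Fin A L) :=
  Nat.card_congr (shaFinEquiv A L)

theorem two_ne_zero_zmod (p : ℕ) [Fact p.Prime] (hp2 : p ≠ 2) : (2 : ZMod p) ≠ 0 := by
  intro h
  have h' : ((2 : ℕ) : ZMod p) = 0 := by exact_mod_cast h
  rw [ZMod.natCast_eq_zero_iff] at h'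
  exact hp2 ((Nat.prime_dvd_prime_iff_eq Fact.out Nat.prime_two).1 h')

/-- `sha₁ S N` is finite (GD10). -/
theorem finite_sha₁ {p : ℕ} [Fact p.Prime] (hp2 : p ≠ 2) (hF : H1FiniteSpec S p)
    (N : Rep.{0, 0, 0} (ZMod p) GQ) [FiniteDimensional (ZMod p) N] (L₀ : Level S)
    (hN : ∀ s ∈ L₀.U, ∀ n : N, N.ρ s n = n) : Finite (sha₁ S N) := by
  have h1 : Module.Finite (ZMod p) (continuousH1S S N) :=
    hF N ⟨L₀, fun s hs => LinearMap.ext fun n => hN s hs n⟩
  have h2 : Finite (continuousH1S S N) := Module.finite_of_finite (ZMod p)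
  have hle : sha₁ S N ≤ continuousH1S S N := fun x hx =>
    ((Fermat.Agent.S55.Bridge.mem_sha₁_iff S (two_ne_zero_zmod p hp2) N x).1 hx).1
  exact Finite.of_injective (fun x : sha₁ S N => (⟨x.1, hle x.2⟩ : continuousH1S S N))
    (fun x y hxy => Subtype.ext (congrArg (fun z : continuousH1S S N => (z : H1 N)) hxy))

/-- **LIM4.** -/
theorem lim4 : LIM4Spec := by
  intro p _ hp2 S hpS hF N _ L₀ hN
  have hfin : Finite (sha₁ S N) := finite_sha₁ hp2 hF N L₀ hN
  refine ⟨hfin, ?_⟩
  obtain ⟨L₁, h01, h⟩ :=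
    H603.exists_level_forall_card_sha1Fin_eq N (two_ne_zero_zmod p hp2) L₀ hN
  exact ⟨L₁, h01, fun L hL => (card_shaFin_eq N L).trans (h L hL)⟩

end

end Fermat.Agent.S55.E1.H423
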